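import Fermat.Agent.RedInj.Torsion
import Fermat.Agent.Deuring.Data

/-!
# Torsion injectivity for `Deuring.GaussData` / `Deuring.RedMap`
-/

set_option autoImplicit false

open AlgebraicCurve WithZero Module

namespace Fermat.Agent.RedInj

open Fermat.Agent.RR Fermat.Agent.FF Fermat.Agent.Deuring

variable {K F k F' : Type*} [Field K] [Field F] [Field k] [Field F']
    [Algebra K F] [Algebra k F']

/-- The `RedField` of a `GaussData`. -/
noncomputable def RedField.ofGauss (G : GaussData K F k F') : RedField K F k F' where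
  A := G.A
  resA := G.res
  O := G.O
  rho := G.ρ
  resA_surj := G.res_surj
  rho_surj := G.ρ_surj
  mem_iff := G.mem_O_iff
  rho_algebraMap := G.ρ_algebraMap
  exists_basis := by
    intro V hV
    obtain ⟨b, hb, hli⟩ := G.ortho V
    exact ⟨finrank K V, fun i => ⟨((b i : V) : F), hb i⟩, fun i => (b i).2, hli, rfl⟩

theorem RedField.ofGauss_red (G : GaussData K F k F') {x : F} (hx : x ∈ G.O) :
    (RedField.ofGauss G).red x = G.ρ ⟨x, hx⟩ :=
  (RedField.ofGauss G).red_of_mem hx

variable [IsFF K F] [IsFF k F']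

/-- The `RedData` of a `RedMap`. -/
noncomputable def RedData.ofRedMap {G : GaussData K F k F'} (R : RedMap G) :
    RedData K F k F' where
  toRedField := RedField.ofGauss G
  r := R.r
  r_nonneg := R.nonneg
  degree_r := R.degree_r
  r_div := by
    intro x D hx hx0 hD w
    have hx' : x ∈ G.O := hx
    rw [RedField.ofGauss_red G hx'] at hx0 ⊢
    have h1 : D = div x := by
      ext v
      rw [hD v, div_apply]
    rw [h1, R.r_div x hx' hx0, div_apply]

variable [IsAlgClosed K] [IsAlgClosed k]

/-- **Torsion injectivity of the Deuring reduction.** -/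
theorem isPrincipal_of_redMap {G : GaussData K F k F'} (R : RedMap G)
    (hg : genusFF K F ≤ genusFF k F') {m : ℕ} (hm : (m : k) ≠ 0)
    {D : Divisor K F} (hD : Divisor.degree D = 0) (hmD : Divisor.IsPrincipal (m • D))
    (hrD : Divisor.IsPrincipal (R.r D)) : Divisor.IsPrincipal D :=
  (RedData.ofRedMap R).isPrincipal_of_torsion hg hm hD hmD hrD

/-- **Torsion injectivity, function form**: if `m • D = div f` and the (normalised) reduction of
`f` is an `m`-th power, then `D` is principal. -/
theorem isPrincipal_of_pow {G : GaussData K F k F'} (R : RedMap G)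
    (hg : genusFF K F ≤ genusFF k F') {m : ℕ} (hm : (m : k) ≠ 0)
    {D : Divisor K F} (hD : Divisor.degree D = 0) {f : F} (hf : f ≠ 0)
    (hmD : m • D = div f) (hfO : f ∈ G.O) {h : F'} (hh : h ≠ 0) (hfh : G.ρ ⟨f, hfO⟩ = h ^ m) :
    Divisor.IsPrincipal D := by
  have hm0 : m ≠ 0 := by rintro rfl; simp at hm
  refine isPrincipal_of_redMap R hg hm hD ⟨f, hf, fun v => by rw [hmD, div_apply]⟩
    ⟨h, hh, fun w => ?_⟩
  have h1 : m • R.r D = m • div h := by
    rw [← map_nsmul, hmD, R.r_div f hfO (by rw [hfh]; exact pow_ne_zero _ hh), hfh]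
    ext w
    rw [div_apply, Finsupp.smul_apply, div_apply, FF.ord_pow, nsmul_eq_mul]
  have h2 := DFunLike.congr_fun h1 w
  rw [Finsupp.smul_apply, Finsupp.smul_apply, div_apply, nsmul_eq_mul, nsmul_eq_mul] at h2
  exact mul_left_cancel₀ (by exact_mod_cast hm0) h2

end Fermat.Agent.RedInj
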