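import Fermat.Agent.RR.Weil
import Fermat.Agent.FF.Construct
import Fermat.Agent.FF.Degree

/-!
# Consequences of Riemann-Roch over an algebraically closed field

nonspecial effective divisors of degree `g`, base point freeness, existence of places
outside a finite set.
-/

set_option autoImplicit false

open AlgebraicCurve WithZero Module
open scoped IntermediateField

namespace Fermat.Agent.RedInj

open Fermat.Agent.RR Fermat.Agent.FF

variable {K F : Type*} [Field K] [Field F] [Algebra K F] [IsFF K F]

instance instNonemptyPlace : Nonempty (Place K F) := exists_place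

instance instFiniteResiduePlace (v : Place K F) : v.FiniteResidue := ⟨inferInstance⟩

theorem deg_eq_one [IsAlgClosed K] (v : Place K F) : v.deg = 1 := by
  have h1 : Algebra.IsIntegral K v.ResidueField := Algebra.IsIntegral.of_finite K _
  have h2 : Function.Bijective (algebraMap K v.ResidueField) :=
    IsAlgClosed.algebraMap_bijective_of_isIntegral
  have e : K ≃ₗ[K] v.ResidueField :=
    (AlgEquiv.ofBijective (Algebra.ofId K v.ResidueField) h2).toLinearEquiv
  rw [Place.deg, ← e.finrank_eq, Module.finrank_self]

theorem degree_single_one [IsAlgClosed K] (v : Place K F) (n : ℤ) :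
    Divisor.degree (Finsupp.single v n) = n := by
  rw [Divisor.degree_single, deg_eq_one v]; simp

theorem riemannRoch' [IsAlgClosed K] (D : Divisor K F) :
    (ell D : ℤ) - hone D = Divisor.degree D + 1 - genusFF K F := by
  obtain ⟨x, hx⟩ := IsFF.exists_transcendental (K := K) (F := F)
  have := IsFF.finite_adjoin x hx
  have h := riemannRoch (K := K) x hx D
  rw [ell_zero] at h
  push_cast at h
  exact_mod_cast h

theorem exists_canonical' [IsAlgClosed K] : ∃ W : Divisor K F,
    ∀ D : Divisor K F, hone D = ell (W - D) := by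
  obtain ⟨x, hx⟩ := IsFF.exists_transcendental (K := K) (F := F)
  have := IsFF.finite_adjoin x hx
  obtain ⟨W, hW, -⟩ := exists_canonical (K := K) x hx
  exact ⟨W, hW⟩

theorem ell_eq' [IsAlgClosed K] {D : Divisor K F}
    (hD : 2 * (genusFF K F : ℤ) - 2 < Divisor.degree D) :
    (ell D : ℤ) = Divisor.degree D + 1 - genusFF K F := by
  obtain ⟨x, hx⟩ := IsFF.exists_transcendental (K := K) (F := F)
  have := IsFF.finite_adjoin x hx
  have h := ell_eq (K := K) x hx (D := D) (by rw [ell_zero]; push_cast; omega)
  rw [ell_zero] at h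
  exact_mod_cast h

instance instInfinitePlace [IsAlgClosed K] : Infinite (Place K F) := by
  obtain ⟨x, hx⟩ := IsFF.exists_transcendental (K := K) (F := F)
  have hz : ∀ c : K, ∃ v : Place K F, 0 < v.ord (x - algebraMap K F c) := by
    intro c
    apply exists_zero
    intro h
    apply hx
    have := h.add (isAlgebraic_algebraMap (A := F) c)
    rwa [sub_add_cancel] at this
  choose f hf using hz
  refine Infinite.of_injective f ?_
  intro c d hcd
  by_contra hne
  have h1 := hf c
  have h2 := hf d
  rw [← hcd] at h2
  have e : (x - algebraMap K F d) + -(x - algebraMap K F c) = algebraMap K F (c - d) := by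
    rw [map_sub]; ring
  have h3 : (x - algebraMap K F d) + -(x - algebraMap K F c) ≠ 0 := by
    rw [e, ne_eq, map_eq_zero, sub_eq_zero]
    exact hne
  have h4 := ord_add_ge (f c) (n := 1) (f := x - algebraMap K F d)
    (g := -(x - algebraMap K F c)) (by omega) (by rw [ord_neg]; omega) h3
  rw [e, ord_algebraMap] at h4
  omega

omit [IsFF K F] in
/-- If `f ∈ L(D + v)` is not in `L(D)` then its order at `v` is exactly `-D v - 1`. -/
theorem ord_eq_of_notMem {D : Divisor K F} {v : Place K F} {f : F}
    (hf : f ∈ riemannRochSpace D) (hf' : f ∉ riemannRochSpace (D - Finsupp.single v 1)) :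
    f ≠ 0 ∧ v.ord f = - D v := by
  have hf0 : f ≠ 0 := by
    rintro rfl
    exact hf' (Submodule.zero_mem _)
  refine ⟨hf0, ?_⟩
  rw [mem_riemannRochSpace_iff] at hf hf'
  push Not at hf'
  obtain ⟨w, -, hw⟩ := hf'
  have h1 := (hf w).resolve_left hf0
  by_cases hwv : w = v
  · subst hwv
    rw [Finsupp.sub_apply, Finsupp.single_eq_same] at hw
    omega
  · rw [Finsupp.sub_apply, Finsupp.single_eq_of_ne hwv] at hw
    omega

omit [IsFF K F] in
theorem riemannRochSpace_mono' {D D' : Divisor K F} (h : D ≤ D') :
    riemannRochSpace D ≤ riemannRochSpace D' := by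
  intro f hf v
  exact (hf v).trans (exp_le_exp.mpr (h v))

omit [IsFF K F] in
theorem sub_single_le (D : Divisor K F) (v : Place K F) : D - Finsupp.single v 1 ≤ D := by
  have := le_add_single (D - Finsupp.single v 1) v
  rwa [sub_add_cancel] at this

/-- Base point freeness in large degree. -/
theorem exists_exact [IsAlgClosed K] {D : Divisor K F}
    (hD : 2 * (genusFF K F : ℤ) - 1 < Divisor.degree D) (v : Place K F) :
    ∃ f ∈ riemannRochSpace D, f ≠ 0 ∧ v.ord f = - D v := by
  have h1 := ell_eq' (D := D) (by omega)
  have hdeg : Divisor.degree (D - Finsupp.single v 1) = Divisor.degree D - 1 := by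
    rw [map_sub, degree_single_one]
  have h2 := ell_eq' (D := D - Finsupp.single v 1) (by omega)
  by_contra hcon
  push Not at hcon
  have h3 : riemannRochSpace D ≤ riemannRochSpace (D - Finsupp.single v 1) := by
    intro f hf
    by_contra hf'
    obtain ⟨h4, h5⟩ := ord_eq_of_notMem hf hf'
    exact hcon f hf h4 h5
  have h4 : ell D ≤ ell (D - Finsupp.single v 1) := Submodule.finrank_mono h3
  omega

omit [IsFF K F] in
theorem mem_L_of_nonneg {E : Divisor K F} (hE : 0 ≤ E) (c : K) :
    algebraMap K F c ∈ riemannRochSpace E := by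
  intro v
  refine ((v.adicValuation_algebraMap_le_one c)).trans ?_
  rw [← exp_zero]
  exact exp_le_exp.mpr (hE v)

omit [IsFF K F] in
/-- If `ell E = 1` and `E` is effective then `L(E)` consists of the constants. -/
theorem exists_eq_algebraMap {E : Divisor K F} (hE : 0 ≤ E) (h1 : ell E = 1) {f : F}
    (hf : f ∈ riemannRochSpace E) : ∃ c : K, f = algebraMap K F c := by
  have h2 : (1 : F) ∈ riemannRochSpace E := by
    have := mem_L_of_nonneg hE (1 : K)
    rwa [map_one] at this
  have h3 : (⟨1, h2⟩ : riemannRochSpace E) ≠ 0 := by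
    intro h
    exact one_ne_zero (congrArg Subtype.val h)
  obtain ⟨c, hc⟩ := (finrank_eq_one_iff_of_nonzero' _ h3).mp h1 ⟨f, hf⟩
  refine ⟨c, ?_⟩
  have := congrArg Subtype.val hc
  simp only [Submodule.coe_smul] at this
  rw [← this, Algebra.smul_def, mul_one]

/-- If `f` has no poles then it is constant. -/
theorem exists_eq_algebraMap_of_ord_nonneg [IsAlgClosed K] {f : F}
    (hf : ∀ v : Place K F, 0 ≤ v.ord f) : ∃ c : K, f = algebraMap K F c := by
  refine exists_eq_algebraMap le_rfl ell_zero ?_
  rw [mem_riemannRochSpace_iff]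
  intro v
  right
  simpa using hf v

/-- There are nonspecial effective divisors of any degree `i ≤ g`. -/
theorem exists_nonspecial_aux [IsAlgClosed K] (i : ℕ) (hi : i ≤ genusFF K F) :
    ∃ E : Divisor K F, 0 ≤ E ∧ Divisor.degree E = i ∧ ell E = 1 := by
  classical
  induction i with
  | zero => exact ⟨0, le_rfl, by simp, ell_zero⟩
  | succ i ih =>
    obtain ⟨E, hE, hdeg, hell⟩ := ih (by omega)
    obtain ⟨W, hW⟩ := exists_canonical' (K := K) (F := F)
    have h1 := riemannRoch' E
    have h2 : (ell (W - E) : ℤ) = genusFF K F - i := by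
      rw [← hW E]; omega
    have h3 : riemannRochSpace (W - E) ≠ ⊥ := by
      intro h
      have : ell (W - E) = 0 := by rw [ell, h, finrank_bot]
      omega
    obtain ⟨ω, hω, hω0⟩ := Submodule.exists_mem_ne_zero_of_ne_bot h3
    obtain ⟨v, hv⟩ := Infinite.exists_notMem_finset (div ω + (W - E)).support
    rw [Finsupp.mem_support_iff, not_not] at hv
    have hlt : riemannRochSpace (W - E - Finsupp.single v 1) < riemannRochSpace (W - E) := by
      refine lt_of_le_of_ne (riemannRochSpace_mono' (sub_single_le _ _)) ?_
      intro h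
      rw [← h, mem_riemannRochSpace_iff] at hω
      have h4 := (hω v).resolve_left hω0
      rw [Finsupp.add_apply, div_apply] at hv
      rw [Finsupp.sub_apply, Finsupp.single_eq_same] at h4
      omega
    have h5 : ell (W - E - Finsupp.single v 1) < ell (W - E) := Submodule.finrank_lt_finrank_of_lt hlt
    have h6 := ell_le (sub_single_le (W - E) v)
    simp only [map_sub, degree_single_one] at h6
    have h7 := riemannRoch' (E + Finsupp.single v 1)
    have h8 : W - (E + Finsupp.single v 1) = W - E - Finsupp.single v 1 := by abel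
    have hv0 : (0 : Divisor K F) ≤ Finsupp.single v 1 := Finsupp.single_nonneg.mpr zero_le_one
    refine ⟨E + Finsupp.single v 1, add_nonneg hE hv0, ?_, ?_⟩
    · rw [map_add, degree_single_one, hdeg]; push_cast; rfl
    · rw [hW, h8, map_add, degree_single_one, hdeg] at h7
      omega

theorem exists_nonspecial [IsAlgClosed K] :
    ∃ E : Divisor K F, 0 ≤ E ∧ Divisor.degree E = genusFF K F ∧ ell E = 1 :=
  exists_nonspecial_aux _ le_rfl

omit [IsFF K F] in
/-- Induction principle for effective divisors. -/
theorem effective_induction {P : Divisor K F → Prop} (h0 : P 0)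
    (hadd : ∀ (E : Divisor K F) (v : Place K F), 0 ≤ E → P E → P (E + Finsupp.single v 1)) :
    ∀ E : Divisor K F, 0 ≤ E → P E := by
  intro E hE
  refine ge_induction (P := P) 0 h0 ?_ E hE
  intro E v h1 h2
  exact hadd E v h1 h2

end Fermat.Agent.RedInj
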