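import Mathlib

/-!
# Reduction of a field with respect to a valuation ring; orthonormal families

`RedField K F k F'`: compatible valuation rings `A ⊆ K`, `O ⊆ F` with residue fields `k`, `F'`,
such that every finite-dimensional `K`-subspace of `F` has an orthonormal basis.
-/

set_option autoImplicit false

open Module Submodule

namespace Fermat.Agent.RedInj

/-- Compatible reductions of `K` and `F`. -/
structure RedField (K F k F' : Type*) [Field K] [Field F] [Field k] [Field F']
    [Algebra K F] [Algebra k F'] where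
  A : ValuationSubring K
  resA : A →+* k
  O : ValuationSubring F
  rho : O →+* F'
  resA_surj : Function.Surjective resA
  rho_surj : Function.Surjective rho
  mem_iff : ∀ c : K, algebraMap K F c ∈ O ↔ c ∈ A
  rho_algebraMap : ∀ c : A,
    rho ⟨algebraMap K F c, (mem_iff c).2 c.2⟩ = algebraMap k F' (resA c)
  exists_basis : ∀ V : Submodule K F, FiniteDimensional K V →
    ∃ (n : ℕ) (e : Fin n → O), (∀ i, (e i : F) ∈ V) ∧
      LinearIndependent k (fun i => rho (e i)) ∧ Module.finrank K V = n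

namespace RedField

variable {K F k F' : Type*} [Field K] [Field F] [Field k] [Field F']
    [Algebra K F] [Algebra k F'] (R : RedField K F k F')

open Classical in
/-- total version of the reduction map `rho` -/
noncomputable def red (x : F) : F' := if h : x ∈ R.O then R.rho ⟨x, h⟩ else 0

open Classical in
/-- total version of the reduction map `resA` -/
noncomputable def res (c : K) : k := if h : c ∈ R.A then R.resA ⟨c, h⟩ else 0

theorem red_of_mem {x : F} (h : x ∈ R.O) : R.red x = R.rho ⟨x, h⟩ := by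
  simp [red, h]

theorem red_coe (x : R.O) : R.red x = R.rho x := by
  rw [red_of_mem R x.2]

theorem res_of_mem {c : K} (h : c ∈ R.A) : R.res c = R.resA ⟨c, h⟩ := by
  simp [res, h]

theorem red_add {x y : F} (hx : x ∈ R.O) (hy : y ∈ R.O) : R.red (x + y) = R.red x + R.red y := by
  rw [R.red_of_mem hx, R.red_of_mem hy, R.red_of_mem (add_mem hx hy), ← map_add]
  rfl

theorem red_mul {x y : F} (hx : x ∈ R.O) (hy : y ∈ R.O) : R.red (x * y) = R.red x * R.red y := by
  rw [R.red_of_mem hx, R.red_of_mem hy, R.red_of_mem (mul_mem hx hy), ← map_mul]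
  rfl

theorem red_neg {x : F} (hx : x ∈ R.O) : R.red (-x) = - R.red x := by
  rw [R.red_of_mem hx, R.red_of_mem (neg_mem hx), ← map_neg]
  rfl

theorem red_sub {x y : F} (hx : x ∈ R.O) (hy : y ∈ R.O) : R.red (x - y) = R.red x - R.red y := by
  rw [R.red_of_mem hx, R.red_of_mem hy, R.red_of_mem (sub_mem hx hy), ← map_sub]
  rfl

theorem red_pow {x : F} (hx : x ∈ R.O) (n : ℕ) : R.red (x ^ n) = R.red x ^ n := by
  rw [R.red_of_mem hx, R.red_of_mem (pow_mem hx n), ← map_pow]
  rfl

@[simp] theorem red_zero : R.red 0 = 0 := by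
  rw [R.red_of_mem (zero_mem _)]
  exact map_zero R.rho

@[simp] theorem red_one : R.red 1 = 1 := by
  rw [R.red_of_mem (one_mem _)]
  exact map_one R.rho

@[simp] theorem res_zero : R.res 0 = 0 := by
  rw [R.res_of_mem (zero_mem _)]
  exact map_zero R.resA

@[simp] theorem res_one : R.res 1 = 1 := by
  rw [R.res_of_mem (one_mem _)]
  exact map_one R.resA

theorem res_mul {x y : K} (hx : x ∈ R.A) (hy : y ∈ R.A) : R.res (x * y) = R.res x * R.res y := by
  rw [R.res_of_mem hx, R.res_of_mem hy, R.res_of_mem (mul_mem hx hy), ← map_mul]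
  rfl

theorem res_add {x y : K} (hx : x ∈ R.A) (hy : y ∈ R.A) : R.res (x + y) = R.res x + R.res y := by
  rw [R.res_of_mem hx, R.res_of_mem hy, R.res_of_mem (add_mem hx hy), ← map_add]
  rfl

theorem algebraMap_mem {c : K} (hc : c ∈ R.A) : algebraMap K F c ∈ R.O := (R.mem_iff c).2 hc

theorem smul_mem {c : K} (hc : c ∈ R.A) {x : F} (hx : x ∈ R.O) : c • x ∈ R.O := by
  rw [Algebra.smul_def]
  exact mul_mem (R.algebraMap_mem hc) hx

theorem red_algebraMap {c : K} (hc : c ∈ R.A) :
    R.red (algebraMap K F c) = algebraMap k F' (R.res c) := by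
  rw [R.red_of_mem (R.algebraMap_mem hc), R.res_of_mem hc, ← R.rho_algebraMap ⟨c, hc⟩]

theorem red_smul {c : K} (hc : c ∈ R.A) {x : F} (hx : x ∈ R.O) :
    R.red (c • x) = R.res c • R.red x := by
  rw [Algebra.smul_def, Algebra.smul_def, R.red_mul (R.algebraMap_mem hc) hx, R.red_algebraMap hc]

theorem sum_mem {ι : Type*} {s : Finset ι} {f : ι → F} (h : ∀ i ∈ s, f i ∈ R.O) :
    ∑ i ∈ s, f i ∈ R.O := Subring.sum_mem R.O.toSubring h

theorem red_sum {ι : Type*} {s : Finset ι} {f : ι → F} (h : ∀ i ∈ s, f i ∈ R.O) :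
    R.red (∑ i ∈ s, f i) = ∑ i ∈ s, R.red (f i) := by
  classical
  induction s using Finset.induction_on with
  | empty => simp
  | insert a s ha ih =>
    rw [Finset.sum_insert ha, Finset.sum_insert ha, R.red_add (h a (Finset.mem_insert_self _ _)),
      ih fun i hi => h i (Finset.mem_insert_of_mem hi)]
    exact R.sum_mem fun i hi => h i (Finset.mem_insert_of_mem hi)

theorem exists_red (y : F') : ∃ x ∈ R.O, R.red x = y := by
  obtain ⟨x, hx⟩ := R.rho_surj y
  exact ⟨x, x.2, by rw [red_coe, hx]⟩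

theorem exists_res (y : k) : ∃ x ∈ R.A, R.res x = y := by
  obtain ⟨x, hx⟩ := R.resA_surj y
  exact ⟨x, x.2, by rw [R.res_of_mem x.2, hx]⟩

theorem inv_mem_of_red_ne {x : F} (hx : x ∈ R.O) (h : R.red x ≠ 0) : x⁻¹ ∈ R.O := by
  by_contra hcon
  have hx0 : x ≠ 0 := by rintro rfl; simp at h
  obtain ⟨y, hy, hxy⟩ := R.exists_red (R.red x)⁻¹
  -- `x` is in the maximal ideal
  have h1 : R.O.valuation x < 1 := by
    rw [← ValuationSubring.valuation_le_one_iff, map_inv₀, not_le] at hcon
    rcases (R.O.valuation_le_one_iff x).mpr hx |>.lt_or_eq with h2 | h2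
    · exact h2
    · rw [h2, inv_one] at hcon
      exact absurd hcon (lt_irrefl _)
  have h2 : R.O.valuation (x * y) < 1 := by
    rw [map_mul]
    exact mul_lt_one_of_lt_of_le h1 ((R.O.valuation_le_one_iff y).mpr hy)
  have h3 : R.O.valuation (1 - x * y) = 1 := by
    rw [Valuation.map_sub_eq_of_lt_left _ (by rwa [map_one]), map_one]
  have h4 : (1 - x * y)⁻¹ ∈ R.O := by
    rw [← ValuationSubring.valuation_le_one_iff, map_inv₀, h3, inv_one]
  have h5 : (1 - x * y) ∈ R.O := sub_mem (one_mem _) (mul_mem hx hy)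
  have h6 : R.red (1 - x * y) = 0 := by
    rw [R.red_sub (one_mem _) (mul_mem hx hy), R.red_mul hx hy, hxy, mul_inv_cancel₀ h, red_one,
      sub_self]
  have h7 : (1 - x * y) ≠ 0 := by
    intro h8
    rw [h8, map_zero] at h3
    exact zero_ne_one h3
  have h8 : R.red ((1 - x * y) * (1 - x * y)⁻¹) = 1 := by rw [mul_inv_cancel₀ h7, red_one]
  rw [R.red_mul h5 h4, h6, zero_mul] at h8
  exact zero_ne_one h8

theorem red_inv {x : F} (hx : x ∈ R.O) (h : R.red x ≠ 0) : R.red x⁻¹ = (R.red x)⁻¹ := by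
  have hx0 : x ≠ 0 := by rintro rfl; simp at h
  have h1 : R.red (x * x⁻¹) = 1 := by rw [mul_inv_cancel₀ hx0, red_one]
  rw [R.red_mul hx (R.inv_mem_of_red_ne hx h)] at h1
  exact eq_inv_of_mul_eq_one_right h1

/-- `c` is in the maximal ideal of `A` -/
theorem res_eq_zero_iff {c : K} (hc : c ∈ R.A) : R.res c = 0 ↔ R.A.valuation c < 1 := by
  have hle := (R.A.valuation_le_one_iff c).mpr hc
  constructor
  · intro h
    rcases hle.lt_or_eq with h1 | h1
    · exact h1
    · exfalso
      have hc0 : c ≠ 0 := by rintro rfl; simp at h1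
      have h2 : c⁻¹ ∈ R.A := by
        rw [← ValuationSubring.valuation_le_one_iff, map_inv₀, h1, inv_one]
      have h3 : R.res (c * c⁻¹) = 1 := by rw [mul_inv_cancel₀ hc0, res_one]
      rw [R.res_mul hc h2, h, zero_mul] at h3
      exact zero_ne_one h3
  · intro h
    by_contra hne
    -- then `algebraMap c` is a unit of `O`, so `c⁻¹ ∈ A`
    have h1 : R.red (algebraMap K F c) ≠ 0 := by
      rw [R.red_algebraMap hc]
      simpa using hne
    have h2 := R.inv_mem_of_red_ne (R.algebraMap_mem hc) h1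
    rw [← map_inv₀, R.mem_iff, ← ValuationSubring.valuation_le_one_iff, map_inv₀] at h2
    have hc0 : R.A.valuation c ≠ 0 := by
      intro h3
      rw [map_eq_zero] at h3
      subst h3
      simp at hne
    rw [inv_le_one₀ (zero_lt_iff.mpr hc0)] at h2
    exact absurd h (not_lt.mpr h2)

/-- The reduction of a subspace. -/
noncomputable def redSub (V : Submodule K F) : Submodule k F' where
  carrier := {y | ∃ x ∈ V, x ∈ R.O ∧ R.red x = y}
  zero_mem' := ⟨0, V.zero_mem, zero_mem _, by simp⟩
  add_mem' := by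
    rintro _ _ ⟨x, hx, hxO, rfl⟩ ⟨y, hy, hyO, rfl⟩
    exact ⟨x + y, V.add_mem hx hy, add_mem hxO hyO, R.red_add hxO hyO⟩
  smul_mem' := by
    rintro c _ ⟨x, hx, hxO, rfl⟩
    obtain ⟨d, hd, rfl⟩ := R.exists_res c
    exact ⟨d • x, V.smul_mem _ hx, R.smul_mem hd hxO, R.red_smul hd hxO⟩

theorem mem_redSub {V : Submodule K F} {y : F'} :
    y ∈ R.redSub V ↔ ∃ x ∈ V, x ∈ R.O ∧ R.red x = y := Iff.rfl

theorem red_mem_redSub {V : Submodule K F} {x : F} (hx : x ∈ V) (hxO : x ∈ R.O) :
    R.red x ∈ R.redSub V := ⟨x, hx, hxO, rfl⟩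

/-- Orthonormal families. -/
def Ortho {ι : Type*} (e : ι → F) : Prop :=
  (∀ i, e i ∈ R.O) ∧ LinearIndependent k (fun i => R.red (e i))

section Ortho

variable {ι : Type*} {e : ι → F}

theorem Ortho.exists_scale (he : R.Ortho e) (s : Finset ι) (g : ι → K)
    (hg : ∃ i ∈ s, g i ≠ 0) :
    ∃ i ∈ s, g i ≠ 0 ∧ (∀ j ∈ s, (g i)⁻¹ * g j ∈ R.A) ∧
      (g i)⁻¹ • ∑ j ∈ s, g j • e j ∈ R.O ∧ R.red ((g i)⁻¹ • ∑ j ∈ s, g j • e j) ≠ 0 := by
  obtain ⟨i0, hi0, hgi0⟩ := hg
  obtain ⟨i, hi, hmax⟩ := s.exists_max_image (fun i => R.A.valuation (g i)) ⟨i0, hi0⟩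
  have hgi : g i ≠ 0 := by
    intro h
    have := hmax i0 hi0
    rw [h, map_zero, le_zero_iff, map_eq_zero] at this
    exact hgi0 this
  have hmem : ∀ j ∈ s, (g i)⁻¹ * g j ∈ R.A := by
    intro j hj
    rw [← ValuationSubring.valuation_le_one_iff, map_mul, map_inv₀]
    have hv : R.A.valuation (g i) ≠ 0 := (Valuation.ne_zero_iff _).mpr hgi
    calc (R.A.valuation (g i))⁻¹ * R.A.valuation (g j)
        ≤ (R.A.valuation (g i))⁻¹ * R.A.valuation (g i) := mul_le_mul_right (hmax j hj) _
      _ = 1 := inv_mul_cancel₀ hv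
  have hsum : (g i)⁻¹ • ∑ j ∈ s, g j • e j = ∑ j ∈ s, ((g i)⁻¹ * g j) • e j := by
    rw [Finset.smul_sum]
    simp only [smul_smul]
  have hO : ∀ j ∈ s, ((g i)⁻¹ * g j) • e j ∈ R.O := fun j hj => R.smul_mem (hmem j hj) (he.1 j)
  refine ⟨i, hi, hgi, hmem, ?_, ?_⟩
  · rw [hsum]; exact R.sum_mem hO
  · rw [hsum, R.red_sum hO]
    intro h0
    rw [Finset.sum_congr rfl fun j hj => R.red_smul (hmem j hj) (he.1 j)] at h0
    have := (linearIndependent_iff'.mp he.2) s (fun j => R.res ((g i)⁻¹ * g j)) h0 i hi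
    simp only [inv_mul_cancel₀ hgi, res_one] at this
    exact one_ne_zero this

theorem Ortho.linearIndependent (he : R.Ortho e) : LinearIndependent K e := by
  rw [linearIndependent_iff']
  intro s g hg
  by_contra h
  push Not at h
  obtain ⟨i, hi, hgi, -, h1, h2⟩ := he.exists_scale R s g h
  rw [hg, smul_zero, red_zero] at h2
  exact h2 rfl

theorem Ortho.coeff_mem (he : R.Ortho e) {s : Finset ι} {g : ι → K}
    (h : ∑ j ∈ s, g j • e j ∈ R.O) : ∀ j ∈ s, g j ∈ R.A := by
  by_cases h0 : ∃ i ∈ s, g i ≠ 0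
  · obtain ⟨i, hi, hgi, h1, h2, h3⟩ := he.exists_scale R s g h0
    have h4 : g i ∈ R.A := by
      rw [← R.mem_iff]
      have h5 := R.inv_mem_of_red_ne h2 h3
      have h6 := mul_mem h5 h
      have h7 : ∑ j ∈ s, g j • e j ≠ 0 := by
        intro h8
        rw [h8, smul_zero, red_zero] at h3
        exact h3 rfl
      rwa [Algebra.smul_def, mul_inv, mul_assoc, inv_mul_cancel₀ h7, mul_one, map_inv₀, inv_inv]
        at h6
    intro j hj
    have := mul_mem h4 (h1 j hj)
    rwa [mul_inv_cancel_left₀ hgi] at this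
  · push Not at h0
    intro j hj
    rw [h0 j hj]
    exact zero_mem _

end Ortho

/-- the reduction of a finite-dimensional space has the same dimension. -/
theorem finrank_redSub (V : Submodule K F) [FiniteDimensional K V] :
    FiniteDimensional k (R.redSub V) ∧ finrank k (R.redSub V) = finrank K V := by
  obtain ⟨n, e, heV, hli, hn⟩ := R.exists_basis V inferInstance
  have hO : R.Ortho (fun i => (e i : F)) := ⟨fun i => (e i).2, by simpa only [red_coe] using hli⟩
  let e' : Fin n → V := fun i => ⟨e i, heV i⟩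
  have hli' : LinearIndependent K e' := by
    have := hO.linearIndependent R
    exact LinearIndependent.of_comp V.subtype this
  have hspan : ⊤ ≤ span K (Set.range e') :=
    (hli'.span_eq_top_of_card_eq_finrank' (by simp [hn])).ge
  let b : Fin n → R.redSub V := fun i => ⟨R.rho (e i), ⟨e i, heV i, (e i).2, by rw [red_coe]⟩⟩
  have hb : LinearIndependent k b := LinearIndependent.of_comp (R.redSub V).subtype hli
  have hbs : ⊤ ≤ span k (Set.range b) := by
    rintro ⟨y, x, hx, hxO, rfl⟩ -
    have h1 : (⟨x, hx⟩ : V) ∈ span K (Set.range e') := hspan trivial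
    rw [Submodule.mem_span_range_iff_exists_fun] at h1
    obtain ⟨c, hc⟩ := h1
    have h2 : ∑ i, c i • (e i : F) = x := by
      have := congrArg Subtype.val hc
      simpa [e'] using this
    have h3 := hO.coeff_mem R (s := Finset.univ) (g := c) (by rw [h2]; exact hxO)
    rw [Submodule.mem_span_range_iff_exists_fun]
    refine ⟨fun i => R.res (c i), ?_⟩
    apply Subtype.ext
    simp only [AddSubmonoidClass.coe_finsetSum, Submodule.coe_smul, b]
    rw [← h2, R.red_sum fun i hi => R.smul_mem (h3 i hi) (e i).2]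
    refine Finset.sum_congr rfl fun i hi => ?_
    rw [R.red_smul (h3 i hi) (e i).2, red_coe]
  have B := Basis.mk hb hbs
  refine ⟨B.finiteDimensional_of_finite, ?_⟩
  rw [finrank_eq_card_basis B, hn, Fintype.card_fin]

/-- Lifts of a basis of the reduction form a basis. -/
theorem span_lift (V : Submodule K F) [FiniteDimensional K V] {ι : Type*} {e : ι → F}
    (he : R.Ortho e) (heV : ∀ i, e i ∈ V)
    (hspan : R.redSub V ≤ span k (Set.range fun i => R.red (e i))) :
    Finite ι ∧ V = span K (Set.range e) := by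
  obtain ⟨hfd, hfr⟩ := R.finrank_redSub V
  let e' : ι → V := fun i => ⟨e i, heV i⟩
  have hli' : LinearIndependent K e' :=
    LinearIndependent.of_comp V.subtype (he.linearIndependent R)
  have hfin : Finite ι := hli'.finite
  have := Fintype.ofFinite ι
  refine ⟨hfin, ?_⟩
  have hcard : Fintype.card ι = finrank K V := by
    rw [← hfr]
    have h1 : span k (Set.range fun i => R.red (e i)) ≤ R.redSub V := by
      rw [Submodule.span_le]
      rintro _ ⟨i, rfl⟩
      exact R.red_mem_redSub (heV i) (he.1 i)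
    have h2 : R.redSub V = span k (Set.range fun i => R.red (e i)) := le_antisymm hspan h1
    rw [h2, finrank_span_eq_card he.2]
  apply le_antisymm
  · intro x hx
    have h1 : (⟨x, hx⟩ : V) ∈ span K (Set.range e') := by
      rw [hli'.span_eq_top_of_card_eq_finrank' hcard]; trivial
    rw [Submodule.mem_span_range_iff_exists_fun] at h1 ⊢
    obtain ⟨c, hc⟩ := h1
    refine ⟨c, ?_⟩
    have := congrArg Subtype.val hc
    simpa [e'] using this
  · rw [Submodule.span_le]
    rintro _ ⟨i, rfl⟩
    exact heV i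

theorem Ortho.exists_coeff {ι : Type*} [Fintype ι] {e : ι → F} (he : R.Ortho e) {x : F}
    (hx : x ∈ span K (Set.range e)) (hxO : x ∈ R.O) :
    ∃ c : ι → K, (∀ i, c i ∈ R.A) ∧ ∑ i, c i • e i = x ∧ R.red x = ∑ i, R.res (c i) • R.red (e i) := by
  rw [Submodule.mem_span_range_iff_exists_fun] at hx
  obtain ⟨c, hc⟩ := hx
  have h1 : ∀ i ∈ Finset.univ, c i ∈ R.A := he.coeff_mem R (by rw [hc]; exact hxO)
  refine ⟨c, fun i => h1 i (Finset.mem_univ i), hc, ?_⟩
  rw [← hc, R.red_sum fun i hi => R.smul_mem (h1 i hi) (he.1 i)]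
  exact Finset.sum_congr rfl fun i hi => R.red_smul (h1 i hi) (he.1 i)

/-- **Comparison of two lattices with the same reduction.** -/
theorem two_lattices {V M M' : Submodule K F} [FiniteDimensional K V] (hMV : M ≤ V)
    (hM'V : M' ≤ V) (hred : R.redSub M = R.redSub M') (hne : ¬ M ≤ M') :
    ∃ b : K, b ≠ 0 ∧ b ∈ R.A ∧ R.res b = 0 ∧
      (∀ s ∈ M, s ∈ R.O → ∃ t ∈ V, t ∈ R.O ∧ s + b • t ∈ M') ∧
      (∃ s ∈ M, s ∈ R.O ∧ ∃ t ∈ V, t ∈ R.O ∧ s + b • t ∈ M' ∧ R.red t ∉ R.redSub M) := by
  classical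
  have hMfd : FiniteDimensional K M := Submodule.finiteDimensional_of_le hMV
  -- adapted bases of the reductions
  obtain ⟨S, hSM, hSspan, hSli⟩ := exists_linearIndependent k (R.redSub M' : Set F')
  have hSspan' : span k S = R.redSub M' := by rw [hSspan, Submodule.span_eq]
  have hSV : S ⊆ (R.redSub V : Set F') := by
    intro y hy
    obtain ⟨x, hx, hxO, rfl⟩ := hSM hy
    exact R.red_mem_redSub (hM'V hx) hxO
  have hSli' : LinearIndepOn k id S := hSli
  obtain ⟨B, hBV, hSB, hVB, hBli⟩ := exists_linearIndepOn_id_extension hSli' hSV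
  have h1 : ∀ y : B, ∃ x ∈ V, x ∈ R.O ∧ R.red x = y ∧ ((y : F') ∈ S → x ∈ M') := by
    rintro ⟨y, hy⟩
    by_cases hyS : y ∈ S
    · obtain ⟨x, hx, hxO, h⟩ := hSM hyS
      exact ⟨x, hM'V hx, hxO, h, fun _ => hx⟩
    · obtain ⟨x, hx, hxO, h⟩ := hBV hy
      exact ⟨x, hx, hxO, h, fun h => absurd h hyS⟩
  choose e' he'V he'O he'red he'M using h1
  have h2 : ∀ y : S, ∃ x ∈ M, x ∈ R.O ∧ R.red x = y := by
    rintro ⟨y, hy⟩
    have := hSM hy
    rw [← hred] at this
    exact this
  choose e heM heO hered using h2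
  have he' : R.Ortho e' := ⟨he'O, by simp only [he'red]; exact hBli⟩
  have he : R.Ortho e := ⟨heO, by simp only [hered]; exact hSli⟩
  obtain ⟨hBfin, hBspan⟩ := R.span_lift V he' he'V (by
    have : (Set.range fun i => R.red (e' i)) = B := by
      simp only [he'red]; exact Subtype.range_coe
    rw [this]
    exact hVB)
  obtain ⟨hSfin, hSspan2⟩ := R.span_lift M he heM (by
    have : (Set.range fun i => R.red (e i)) = S := by
      simp only [hered]; exact Subtype.range_coe
    rw [this, hSspan', hred])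
  have := Fintype.ofFinite B
  have := Fintype.ofFinite S
  -- matrix
  have h3 : ∀ x : S, ∃ c : B → K, (∀ i, c i ∈ R.A) ∧ ∑ i, c i • e' i = e x ∧
      R.red (e x) = ∑ i, R.res (c i) • R.red (e' i) := by
    intro x
    exact he'.exists_coeff R (by rw [← hBspan]; exact hMV (heM x)) (heO x)
  choose c hcA hce hcred using h3
  -- entries outside `S` are in the maximal ideal
  have hc0 : ∀ (x : S) (y : B), (y : F') ∉ S → R.res (c x y) = 0 := by
    intro x y hy
    have h4 : ∑ i : B, (R.res (c x i) - if (i : F') = x then 1 else 0) • (i : F') = 0 := by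
      simp only [sub_smul, Finset.sum_sub_distrib, ite_smul, one_smul, zero_smul]
      have h5 := hcred x
      simp only [he'red, hered] at h5
      rw [← h5, sub_eq_zero]
      rw [Finset.sum_eq_single (⟨x, hSB x.2⟩ : B)]
      · simp
      · intro b _ hb
        rw [if_neg]
        intro h
        exact hb (Subtype.ext h)
      · intro h; exact absurd (Finset.mem_univ _) h
    have hBli' : LinearIndependent k (fun i : B => (i : F')) := hBli
    have h5 := (Fintype.linearIndependent_iff.mp hBli') _ h4 y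
    rw [if_neg, sub_zero] at h5
    · exact h5
    · intro h
      exact hy (h ▸ x.2)
  -- choose a maximal entry
  let P : Finset (S × B) := Finset.univ.filter fun p => (p.2 : F') ∉ S
  have hP : ∃ p ∈ P, c p.1 p.2 ≠ 0 := by
    by_contra hcon
    push Not at hcon
    apply hne
    rw [hSspan2, Submodule.span_le]
    rintro _ ⟨x, rfl⟩
    rw [← hce x]
    refine Submodule.sum_mem _ fun i _ => ?_
    by_cases hi : (i : F') ∈ S
    · exact Submodule.smul_mem _ _ (he'M i hi)
    · rw [hcon (x, i) (by simp [P, hi]), zero_smul]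
      exact Submodule.zero_mem _
  obtain ⟨p0, hp0, hp0'⟩ := hP
  obtain ⟨p, hp, hmax⟩ := P.exists_max_image (fun p => R.A.valuation (c p.1 p.2)) ⟨p0, hp0⟩
  have hpS : (p.2 : F') ∉ S := by simpa [P] using hp
  set b := c p.1 p.2 with hb
  have hbne : b ≠ 0 := by
    intro h
    have := hmax p0 hp0
    rw [h, map_zero, le_zero_iff, map_eq_zero] at this
    exact hp0' this
  have hmem : ∀ (x : S) (y : B), (y : F') ∉ S → b⁻¹ * c x y ∈ R.A := by
    intro x y hy
    rw [← ValuationSubring.valuation_le_one_iff, map_mul, map_inv₀]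
    have hv : R.A.valuation b ≠ 0 := (Valuation.ne_zero_iff _).mpr hbne
    calc (R.A.valuation b)⁻¹ * R.A.valuation (c x y)
        ≤ (R.A.valuation b)⁻¹ * R.A.valuation b :=
          mul_le_mul_right (hmax (x, y) (by simp [P, hy])) _
      _ = 1 := inv_mul_cancel₀ hv
  let t : S → F := fun x => - ∑ i ∈ Finset.univ.filter (fun i : B => (i : F') ∉ S),
    (b⁻¹ * c x i) • e' i
  have htO' : ∀ x, ∀ i ∈ Finset.univ.filter (fun i : B => (i : F') ∉ S),
      (b⁻¹ * c x i) • e' i ∈ R.O := by
    intro x i hi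
    exact R.smul_mem (hmem x i (by simpa using hi)) (he'O i)
  have htO : ∀ x, t x ∈ R.O := fun x => neg_mem (R.sum_mem (htO' x))
  have htV : ∀ x, t x ∈ V := fun x =>
    neg_mem (Submodule.sum_mem _ fun i _ => Submodule.smul_mem _ _ (he'V i))
  have htM : ∀ x, e x + b • t x ∈ M' := by
    intro x
    have h4 : e x + b • t x = ∑ i ∈ Finset.univ.filter (fun i : B => ¬ (i : F') ∉ S),
        c x i • e' i := by
      rw [← hce x, ← Finset.sum_filter_add_sum_filter_not Finset.univ (fun i : B => (i : F') ∉ S)]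
      simp only [t, smul_neg, Finset.smul_sum, smul_smul, mul_inv_cancel_left₀ hbne]
      abel
    rw [h4]
    refine Submodule.sum_mem _ fun i hi => Submodule.smul_mem _ _ (he'M i ?_)
    simpa using hi
  refine ⟨b, hbne, hcA _ _, hc0 _ _ hpS, ?_, ?_⟩
  · intro s hs hsO
    obtain ⟨a, haA, has, -⟩ := he.exists_coeff R (x := s) (by rw [← hSspan2]; exact hs) hsO
    refine ⟨∑ i, a i • t i, Submodule.sum_mem _ fun i _ => Submodule.smul_mem _ _ (htV i),
      R.sum_mem fun i _ => R.smul_mem (haA i) (htO i), ?_⟩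
    rw [← has, Finset.smul_sum, ← Finset.sum_add_distrib]
    refine Submodule.sum_mem _ fun i _ => ?_
    rw [smul_comm b (a i), ← smul_add]
    exact Submodule.smul_mem _ _ (htM i)
  · refine ⟨e p.1, heM _, heO _, t p.1, htV _, htO _, htM _, ?_⟩
    intro hcon
    have h4 : R.red (t p.1) = - ∑ i ∈ Finset.univ.filter (fun i : B => (i : F') ∉ S),
        R.res (b⁻¹ * c p.1 i) • (i : F') := by
      simp only [t]
      rw [R.red_neg (R.sum_mem (htO' p.1)), R.red_sum (htO' p.1)]
      congr 1
      refine Finset.sum_congr rfl fun i hi => ?_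
      rw [R.red_smul (hmem _ i (by simpa using hi)) (he'O i), he'red]
    have hBli' : LinearIndependent k (fun i : B => (i : F')) := hBli
    have hdisj := hBli'.disjoint_span_image (s := {i : B | (i : F') ∈ S})
      (t := {i : B | (i : F') ∉ S}) (by
        rw [Set.disjoint_left]; intro i hi hi'; exact hi' hi)
    have h5 : R.red (t p.1) ∈ span k ((fun i : B => (i : F')) '' {i : B | (i : F') ∈ S}) := by
      rw [hred, ← hSspan'] at hcon
      refine Submodule.span_mono ?_ hcon
      intro y hy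
      exact ⟨⟨y, hSB hy⟩, hy, rfl⟩
    have h6 : R.red (t p.1) ∈ span k ((fun i : B => (i : F')) '' {i : B | (i : F') ∉ S}) := by
      rw [h4]
      refine neg_mem (Submodule.sum_mem _ fun i hi => Submodule.smul_mem _ _
        (Submodule.subset_span ⟨i, by simpa using hi, rfl⟩))
    have h7 := (Submodule.disjoint_def.mp hdisj) _ h5 h6
    rw [h4, neg_eq_zero, Finset.sum_filter] at h7
    have h8 : ∑ i : B, (if (i : F') ∉ S then R.res (b⁻¹ * c p.1 i) else 0) • (i : F') = 0 := by
      rw [← h7]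
      refine Finset.sum_congr rfl fun i _ => ?_
      split_ifs <;> simp
    have h9 := (Fintype.linearIndependent_iff.mp hBli') _ h8 p.2
    rw [if_pos hpS, ← hb, inv_mul_cancel₀ hbne, res_one] at h9
    exact one_ne_zero h9

end RedField

end Fermat.Agent.RedInj
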