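import Fermat.Agent.RedInj.RRAux
import Fermat.Agent.RedInj.Lattice

/-!
# Injectivity of the reduction of divisor classes on torsion prime to the residue characteristic

`RedData K F k F'`: a function field `F/K`, its reduction `F'/k` with respect to a "Gauss"
valuation ring `O` of `F` and the reduction homomorphism of divisors `r`.
Under the genus inequality `g(F) ≤ g(F')`:

* `RedData.redSub_L_eq`: the reduction of `L(D)` is `L(r D)` in large degree;
* `RedData.isPrincipal_of_torsion`: if `m` is invertible in `k`, `D` has degree zero, `m • D` is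
  principal and `r D` is principal, then `D` is principal.
-/

set_option autoImplicit false

open AlgebraicCurve WithZero Module Submodule
open scoped IntermediateField

namespace Fermat.Agent.RedInj

open Fermat.Agent.RR Fermat.Agent.FF

/-- A function field with good reduction data. -/
structure RedData (K F k F' : Type*) [Field K] [Field F] [Field k] [Field F']
    [Algebra K F] [Algebra k F'] extends RedField K F k F' where
  r : Divisor K F →+ Divisor k F'
  r_nonneg : ∀ D, 0 ≤ D → 0 ≤ r D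
  degree_r : ∀ D, Divisor.degree (r D) = Divisor.degree D
  r_div : ∀ (x : F) (D : Divisor K F), x ∈ O → toRedField.red x ≠ 0 → (∀ v, D v = v.ord x) →
    ∀ w, r D w = w.ord (toRedField.red x)

section aux

variable {K F : Type*} [Field K] [Field F] [Algebra K F]

theorem mul_mem_L {D D' : Divisor K F} {f g : F} (hf : f ∈ riemannRochSpace D)
    (hg : g ∈ riemannRochSpace D') : f * g ∈ riemannRochSpace (D + D') := by
  intro v
  rw [map_mul, Finsupp.add_apply, exp_add]
  exact mul_le_mul' (hf v) (hg v)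

theorem pow_mem_L {D : Divisor K F} {f : F} (hf : f ∈ riemannRochSpace D) (n : ℕ) :
    f ^ n ∈ riemannRochSpace (n • D) := by
  induction n with
  | zero =>
    rw [pow_zero, zero_smul]
    have := mem_L_of_nonneg (le_refl (0 : Divisor K F)) (1 : K)
    rwa [map_one] at this
  | succ n ih =>
    rw [pow_succ, succ_nsmul]
    exact mul_mem_L ih hf

theorem degree_one_eq_single [IsFF K F] [IsAlgClosed K] {E : Divisor K F} (hE : 0 ≤ E)
    (h1 : Divisor.degree E = 1) : ∃ w : Place K F, E = Finsupp.single w 1 := by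
  have hne : E ≠ 0 := by
    rintro rfl
    simp at h1
  obtain ⟨w, hw⟩ := Finsupp.ne_iff.mp hne
  have h2 : (0 : ℤ) ≤ E w := hE w
  rw [Finsupp.coe_zero, Pi.zero_apply] at hw
  refine ⟨w, (eq_of_le_of_degree_le ?_ ?_).symm⟩
  · intro v
    by_cases hvw : v = w
    · subst hvw
      rw [Finsupp.single_eq_same]
      omega
    · rw [Finsupp.single_eq_of_ne hvw]
      exact hE v
  · rw [degree_single_one, h1]

theorem exists_ne_zero_of_degree [IsFF K F] [IsAlgClosed K] {D : Divisor K F}
    (hD : (genusFF K F : ℤ) ≤ Divisor.degree D) :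
    ∃ f ∈ riemannRochSpace D, f ≠ 0 := by
  have h1 := riemannRoch' D
  have h2 : riemannRochSpace D ≠ ⊥ := by
    intro h
    have : ell D = 0 := by rw [ell, h, finrank_bot]
    omega
  exact Submodule.exists_mem_ne_zero_of_ne_bot h2

end aux

namespace RedData

variable {K F k F' : Type*} [Field K] [Field F] [Field k] [Field F']
    [Algebra K F] [Algebra k F'] (R : RedData K F k F')

theorem exists_normalise {x : F} (hx : x ≠ 0) :
    ∃ c : K, c ≠ 0 ∧ c • x ∈ R.O ∧ R.red (c • x) ≠ 0 := by
  obtain ⟨n, e, heV, hli, hn⟩ := R.exists_basis (K ∙ x) inferInstance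
  rw [finrank_span_singleton hx] at hn
  subst hn
  have h1 := hli.ne_zero 0
  rw [← R.red_coe] at h1
  obtain ⟨c, hc⟩ := Submodule.mem_span_singleton.mp (heV 0)
  refine ⟨c, ?_, ?_, ?_⟩
  · rintro rfl
    rw [zero_smul] at hc
    rw [← hc] at h1
    simp at h1
  · rw [hc]; exact (e 0).2
  · rw [hc]; exact h1

variable [IsFF K F] [IsFF k F']

theorem red_mem_L {D : Divisor K F} {x : F} (hx : x ∈ riemannRochSpace D) (hxO : x ∈ R.O) :
    R.red x ∈ riemannRochSpace (R.r D) := by
  by_cases h0 : R.red x = 0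
  · rw [h0]; exact Submodule.zero_mem _
  have hx0 : x ≠ 0 := by rintro rfl; simp at h0
  rw [mem_riemannRochSpace_iff_div hx0] at hx
  rw [mem_riemannRochSpace_iff_div h0]
  have h1 := R.r_nonneg _ hx
  rw [map_add] at h1
  have h2 : R.r (div x) = div (R.red x) := by
    ext w
    rw [R.r_div x (div x) hxO h0 (fun v => div_apply x v) w, div_apply]
  rwa [h2] at h1

theorem redSub_L_le (D : Divisor K F) :
    R.redSub (riemannRochSpace D) ≤ riemannRochSpace (R.r D) := by
  rintro _ ⟨x, hx, hxO, rfl⟩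
  exact R.red_mem_L hx hxO

theorem ell_le_ell_r (D : Divisor K F) : ell D ≤ ell (R.r D) := by
  rw [ell, ← (R.finrank_redSub (riemannRochSpace D)).2]
  exact Submodule.finrank_mono (R.redSub_L_le D)

variable [IsAlgClosed K] [IsAlgClosed k]

include R in
theorem genus_le : genusFF k F' ≤ genusFF K F := by
  obtain ⟨D, hD⟩ := exists_degree_ge (K := K) (F := F)
    (2 * (genusFF K F : ℤ) + 2 * (genusFF k F' : ℤ))
  have h1 := ell_eq' (D := D) (by omega)
  have h2 := ell_eq' (D := R.r D) (by rw [R.degree_r]; omega)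
  rw [R.degree_r] at h2
  have h3 := R.ell_le_ell_r D
  omega

theorem redSub_L_eq (hg : genusFF K F ≤ genusFF k F') {D : Divisor K F}
    (hD : 2 * (genusFF K F : ℤ) - 2 < Divisor.degree D) :
    R.redSub (riemannRochSpace D) = riemannRochSpace (R.r D) := by
  have hg' := R.genus_le
  have h1 := ell_eq' (D := D) hD
  have h2 := ell_eq' (D := R.r D) (by rw [R.degree_r]; omega)
  rw [R.degree_r] at h2
  refine Submodule.eq_of_le_of_finrank_eq (R.redSub_L_le D) ?_
  rw [(R.finrank_redSub (riemannRochSpace D)).2]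
  change ell D = ell (R.r D)
  omega

/-- Every place of the reduction lifts. -/
theorem exists_lift_place (hg : genusFF K F ≤ genusFF k F') (w : Place k F') :
    ∃ v : Place K F, R.r (Finsupp.single v 1) = Finsupp.single w 1 := by
  obtain ⟨B, hB⟩ := exists_degree_ge (K := K) (F := F) (2 * (genusFF K F : ℤ) + 1)
  have hg' := R.genus_le
  obtain ⟨s', hs', hs'0⟩ := exists_ne_zero_of_degree (D := R.r B - Finsupp.single w 1) (by
    rw [map_sub, degree_single_one, R.degree_r]; omega)
  have h1 : s' ∈ R.redSub (riemannRochSpace B) := by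
    rw [R.redSub_L_eq hg (by omega)]
    exact riemannRochSpace_mono' (sub_single_le _ _) hs'
  obtain ⟨s, hs, hsO, rfl⟩ := h1
  have hs0 : s ≠ 0 := by rintro rfl; simp at hs'0
  rw [mem_riemannRochSpace_iff_div hs0] at hs
  rw [mem_riemannRochSpace_iff_div hs'0] at hs'
  have h2 : 1 ≤ R.r (div s + B) w := by
    rw [map_add, Finsupp.add_apply, R.r_div s (div s) hsO hs'0 (fun v => div_apply s v) w]
    have := hs' w
    rw [Finsupp.add_apply, Finsupp.sub_apply, Finsupp.single_eq_same, div_apply] at this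
    change 0 ≤ _ at this
    omega
  refine effective_induction (P := fun G => 1 ≤ R.r G w →
    ∃ v : Place K F, R.r (Finsupp.single v 1) = Finsupp.single w 1) ?_ ?_ _ hs h2
  · intro h
    rw [map_zero] at h
    simp at h
  · intro E v hE ih h
    obtain ⟨w', hw'⟩ := degree_one_eq_single (E := R.r (Finsupp.single v 1))
      (R.r_nonneg _ (Finsupp.single_nonneg.mpr zero_le_one))
      (by rw [R.degree_r, degree_single_one])
    by_cases hww : w' = w
    · subst hww
      exact ⟨v, hw'⟩
    · rw [map_add, Finsupp.add_apply, hw', Finsupp.single_eq_of_ne (Ne.symm hww), add_zero] at h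
      exact ih h

theorem exists_lift_effective (hg : genusFF K F ≤ genusFF k F') (E' : Divisor k F')
    (hE' : 0 ≤ E') : ∃ E : Divisor K F, 0 ≤ E ∧ R.r E = E' := by
  refine effective_induction (P := fun G => ∃ E : Divisor K F, 0 ≤ E ∧ R.r E = G) ?_ ?_ _ hE'
  · exact ⟨0, le_rfl, map_zero _⟩
  · rintro G w hG ⟨E, hE, rfl⟩
    obtain ⟨v, hv⟩ := R.exists_lift_place hg w
    exact ⟨E + Finsupp.single v 1,
      add_nonneg hE (Finsupp.single_nonneg.mpr zero_le_one), by rw [map_add, hv]⟩

omit [IsAlgClosed K] [IsAlgClosed k] in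
/-- The basic congruence. -/
theorem claimZ {m : ℕ} {D₁ D₂ : Divisor K F} {f u s t : F} {a b c a' b' : K}
    (hf : f = 1 + a • u) (hf0 : f ≠ 0) (hdiv : ∀ v : Place K F, v.ord f = m * (D₁ v - D₂ v))
    (huO : u ∈ R.O) (hs : s ∈ riemannRochSpace D₁) (hsO : s ∈ R.O) (htO : t ∈ R.O)
    (hst : s + b • t ∈ riemannRochSpace D₂) (ha : a = c * a') (hb : b = c * b') (hc : c ≠ 0)
    (hcA : c ∈ R.A) (hc0 : R.res c = 0) (ha' : a' ∈ R.A) (hb' : b' ∈ R.A) :
    R.res b' • ((m : F') * R.red s ^ (m - 1) * R.red t) - R.res a' • (R.red u * R.red s ^ m) ∈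
      riemannRochSpace (R.r (m • D₁)) := by
  have hbA : b ∈ R.A := by rw [hb]; exact mul_mem hcA hb'
  have haA : a ∈ R.A := by rw [ha]; exact mul_mem hcA ha'
  have hb0 : R.res b = 0 := by rw [hb, R.res_mul hcA hb', hc0, zero_mul]
  have ha0 : R.res a = 0 := by rw [ha, R.res_mul hcA ha', hc0, zero_mul]
  have hfO : f ∈ R.O := by rw [hf]; exact add_mem (one_mem _) (R.smul_mem haA huO)
  have hfred : R.red f = 1 := by
    rw [hf, R.red_add (one_mem _) (R.smul_mem haA huO), R.red_smul haA huO, ha0, zero_smul,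
      add_zero, R.red_one]
  have hfinv : f⁻¹ ∈ R.O := R.inv_mem_of_red_ne hfO (by rw [hfred]; exact one_ne_zero)
  -- expansion
  obtain ⟨w, hwO, hw⟩ : ∃ w ∈ R.O, (s + b • t) ^ m = s ^ m + m * s ^ (m - 1) * (b • t) +
      w * (b • t) ^ 2 := by
    obtain ⟨w, hw⟩ := Polynomial.powAddExpansion (⟨s, hsO⟩ : R.O) ⟨b • t, R.smul_mem hbA htO⟩ m
    refine ⟨w, w.2, ?_⟩
    have := congrArg Subtype.val hw
    simpa using this
  set y : F := b' • ((m : F) * s ^ (m - 1) * t) + (b' * b) • (w * t ^ 2) - a' • (u * s ^ m) with hy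
  have hmO : (m : F) ∈ R.O := by
    have := (algebraMap K F m)
    exact natCast_mem _ _
  have hms : (m : F) * s ^ (m - 1) * t ∈ R.O := mul_mem (mul_mem hmO (pow_mem hsO _)) htO
  have hwt : w * t ^ 2 ∈ R.O := mul_mem hwO (pow_mem htO _)
  have hus : u * s ^ m ∈ R.O := mul_mem huO (pow_mem hsO _)
  have hbb : b' * b ∈ R.A := mul_mem hb' hbA
  have hyO : y ∈ R.O := sub_mem (add_mem (R.smul_mem hb' hms) (R.smul_mem hbb hwt))
    (R.smul_mem ha' hus)
  have hredm : R.red (m : F) = (m : F') := by
    have h1 : (m : F) = algebraMap K F m := by simp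
    have h2 : (m : K) ∈ R.A := natCast_mem _ _
    have h3 : R.res (m : K) = (m : k) := by
      rw [R.res_of_mem h2]
      have : (⟨(m : K), h2⟩ : R.A) = (m : R.A) := by ext; simp
      rw [this, map_natCast]
    rw [h1, R.red_algebraMap h2, h3, map_natCast]
  have hyred : R.red y = R.res b' • ((m : F') * R.red s ^ (m - 1) * R.red t) -
      R.res a' • (R.red u * R.red s ^ m) := by
    rw [hy, R.red_sub (add_mem (R.smul_mem hb' hms) (R.smul_mem hbb hwt)) (R.smul_mem ha' hus),
      R.red_add (R.smul_mem hb' hms) (R.smul_mem hbb hwt), R.red_smul hb' hms,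
      R.red_smul hbb hwt, R.red_smul ha' hus, R.red_mul (mul_mem hmO (pow_mem hsO _)) htO,
      R.red_mul hmO (pow_mem hsO _), R.red_pow hsO, hredm, R.red_mul huO (pow_mem hsO _),
      R.red_pow hsO, R.res_mul hb' hbA, hb0, mul_zero, zero_smul, add_zero]
  -- the identity
  have hid : c • (y * f⁻¹) = (s + b • t) ^ m * f⁻¹ - s ^ m := by
    have h1 : c • y = (s + b • t) ^ m - s ^ m * f := by
      rw [hw, hy, hf, ha, hb]
      simp only [Algebra.smul_def, map_mul]
      ring
    rw [← smul_mul_assoc, h1, sub_mul, mul_assoc, mul_inv_cancel₀ hf0, mul_one]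
  have hL : y * f⁻¹ ∈ riemannRochSpace (m • D₁) := by
    have h1 : c • (y * f⁻¹) ∈ riemannRochSpace (m • D₁) := by
      rw [hid]
      refine Submodule.sub_mem _ ?_ (pow_mem_L hs m)
      have h2 : f⁻¹ ∈ riemannRochSpace (m • D₁ - m • D₂) := by
        rw [mem_riemannRochSpace_iff]
        intro v
        right
        rw [v.ord_inv, hdiv v, Finsupp.sub_apply, Finsupp.smul_apply, Finsupp.smul_apply,
          nsmul_eq_mul, nsmul_eq_mul]
        apply le_of_eq
        ring
      have h3 := mul_mem_L (pow_mem_L hst m) h2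
      rwa [add_sub_cancel] at h3
    have h2 := Submodule.smul_mem _ c⁻¹ h1
    rwa [smul_smul, inv_mul_cancel₀ hc, one_smul] at h2
  have h3 := R.red_mem_L hL (mul_mem hyO hfinv)
  rw [R.red_mul hyO hfinv, R.red_inv hfO (by rw [hfred]; exact one_ne_zero), hfred, inv_one,
    mul_one, hyred] at h3
  exact h3

omit [IsFF K F] [IsFF k F'] [IsAlgClosed K] [IsAlgClosed k] in
/-- If a unit `f` of `O` is not constant then, up to a constant, `f = 1 + a u` with `u` not
congruent to a constant. -/
theorem exists_one_add {f : F} (hf1 : f ∈ R.O) (hf2 : R.red f = 1)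
    (hfK : ∀ c : K, f ≠ algebraMap K F c) :
    ∃ (g a : K) (u : F), g ≠ 0 ∧ a ≠ 0 ∧ a ∈ R.A ∧ R.res a = 0 ∧ u ∈ R.O ∧
      (∀ c : k, R.red u ≠ algebraMap k F' c) ∧ g • f = 1 + a • u := by
  have hli : LinearIndependent K ![(1 : F), f] := by
    rw [LinearIndependent.pair_iff]
    intro α β h
    have hβ : β = 0 := by
      by_contra hβ
      apply hfK (-(β⁻¹ * α))
      have hf0 : f ≠ 0 := by rintro rfl; simp at hf2
      have h1 : β • f = - (α • (1 : F)) := by rw [eq_neg_iff_add_eq_zero, add_comm]; exact h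
      have h2 : f = β⁻¹ • (β • f) := by rw [smul_smul, inv_mul_cancel₀ hβ, one_smul]
      rw [h2, h1, smul_neg, smul_smul, Algebra.smul_def, mul_one, map_neg]
    subst hβ
    rw [zero_smul, add_zero, smul_eq_zero] at h
    exact ⟨h.resolve_right one_ne_zero, rfl⟩
  set V : Submodule K F := span K (Set.range ![(1 : F), f]) with hV
  have hVfd : FiniteDimensional K V := by
    rw [hV]; exact FiniteDimensional.span_of_finite K (Set.finite_range _)
  have hV2 : finrank K V = 2 := by
    rw [hV, finrank_span_eq_card hli, Fintype.card_fin]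
  obtain ⟨hfd, hfr⟩ := R.finrank_redSub V
  -- some element of the reduction is not constant
  obtain ⟨u', hu'V, hu'⟩ : ∃ u' ∈ R.redSub V, ∀ c : k, u' ≠ algebraMap k F' c := by
    by_contra hcon
    push Not at hcon
    have h1 : R.redSub V ≤ span k {(1 : F')} := by
      intro y hy
      obtain ⟨c, rfl⟩ := hcon y hy
      rw [Submodule.mem_span_singleton]
      exact ⟨c, by rw [Algebra.smul_def, mul_one]⟩
    have h2 := Submodule.finrank_mono h1
    rw [hfr, hV2] at h2
    have h3 := finrank_span_singleton (K := k) (one_ne_zero (α := F'))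
    omega
  obtain ⟨u, huV, huO, rfl⟩ := hu'V
  have h1V : (1 : F) ∈ V := Submodule.subset_span ⟨0, rfl⟩
  have hfV : f ∈ V := Submodule.subset_span ⟨1, rfl⟩
  have hOrtho : R.Ortho ![(1 : F), u] := by
    constructor
    · intro i
      fin_cases i
      · exact one_mem _
      · exact huO
    · have : (fun i => R.red (![(1 : F), u] i)) = ![(1 : F'), R.red u] := by
        funext i
        fin_cases i
        · simp
        · simp
      rw [this, LinearIndependent.pair_iff]
      intro α β h
      have hβ : β = 0 := by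
        by_contra hβ
        apply hu' (-(β⁻¹ * α))
        have h1 : β • R.red u = - (α • (1 : F')) := by rw [eq_neg_iff_add_eq_zero, add_comm]; exact h
        have h2 : R.red u = β⁻¹ • (β • R.red u) := by rw [smul_smul, inv_mul_cancel₀ hβ, one_smul]
        rw [h2, h1, smul_neg, smul_smul, Algebra.smul_def, mul_one, map_neg]
      subst hβ
      rw [zero_smul, add_zero, smul_eq_zero] at h
      exact ⟨h.resolve_right one_ne_zero, rfl⟩
  have hVspan : V = span K (Set.range ![(1 : F), u]) := by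
    have h1 : span K (Set.range ![(1 : F), u]) ≤ V := by
      rw [Submodule.span_le]
      rintro _ ⟨i, rfl⟩
      fin_cases i
      · exact h1V
      · exact huV
    refine (Submodule.eq_of_le_of_finrank_eq h1 ?_).symm
    rw [finrank_span_eq_card (hOrtho.linearIndependent), hV2, Fintype.card_fin]
  obtain ⟨c, hcA, hc, hcred⟩ := hOrtho.exists_coeff R.toRedField
    (x := f) (by rw [← hVspan]; exact hfV) hf1
  rw [Fin.sum_univ_two] at hc hcred
  simp only [Matrix.cons_val_zero, Matrix.cons_val_one, R.red_one] at hc hcred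
  have hc1 : R.res (c 1) = 0 := by
    by_contra h
    apply hu' ((R.res (c 1))⁻¹ * (1 - R.res (c 0)))
    rw [hf2] at hcred
    have h1 : R.res (c 1) • R.red u = algebraMap k F' (1 - R.res (c 0)) := by
      rw [map_sub, map_one, hcred, Algebra.smul_def (R.res (c 0)), mul_one]
      ring
    have h2 : R.red u = (R.res (c 1))⁻¹ • (R.res (c 1) • R.red u) := by
      rw [smul_smul, inv_mul_cancel₀ h, one_smul]
    rw [h2, h1, Algebra.smul_def, map_mul]
  have hc0 : R.res (c 0) = 1 := by
    rw [hf2, hc1, zero_smul, add_zero, Algebra.smul_def, mul_one] at hcred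
    apply (algebraMap k F').injective
    rw [← hcred, map_one]
  have hc0' : c 0 ≠ 0 := by
    intro h
    rw [h, R.res_zero] at hc0
    exact zero_ne_one hc0
  have hc0inv : (c 0)⁻¹ ∈ R.A := by
    rw [← R.mem_iff, map_inv₀]
    apply R.inv_mem_of_red_ne (R.algebraMap_mem (hcA 0))
    rw [R.red_algebraMap (hcA 0), hc0, map_one]
    exact one_ne_zero
  refine ⟨(c 0)⁻¹, (c 0)⁻¹ * c 1, u, inv_ne_zero hc0', ?_, mul_mem hc0inv (hcA 1), ?_, huO, hu', ?_⟩
  · apply mul_ne_zero (inv_ne_zero hc0')
    intro h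
    apply hfK (c 0)
    rw [← hc, h, zero_smul, add_zero, Algebra.smul_def, mul_one]
  · rw [R.res_mul hc0inv (hcA 1), hc1, mul_zero]
  · rw [← hc, smul_add, smul_smul, smul_smul, inv_mul_cancel₀ hc0', one_smul]

/-- **Key lemma**: two effective divisors with the same nonspecial reduction, which differ by
torsion of order prime to the residue characteristic, are equal. -/
theorem key (hg : genusFF K F ≤ genusFF k F') {m : ℕ} (hm : (m : k) ≠ 0)
    {E E₁ : Divisor K F} (hE : 0 ≤ E) (hE₁ : 0 ≤ E₁) {E' : Divisor k F'}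
    (hrE : R.r E = E') (hrE₁ : R.r E₁ = E') (hell : ell E' = 1) {f : F} (hf0 : f ≠ 0)
    (hdiv : ∀ v : Place K F, v.ord f = m * (E v - E₁ v)) : E = E₁ := by
  by_contra hne
  have hg' := R.genus_le
  have hm0 : m ≠ 0 := by rintro rfl; simp at hm
  have hE' : 0 ≤ E' := by rw [← hrE]; exact R.r_nonneg _ hE
  have hdegE : Divisor.degree E = Divisor.degree E' := by rw [← hrE, R.degree_r]
  have hdegE₁ : Divisor.degree E₁ = Divisor.degree E' := by rw [← hrE₁, R.degree_r]
  -- `f` is not constant
  have hfK : ∀ c : K, f ≠ algebraMap K F c := by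
    rintro c rfl
    apply hne
    ext v
    have h1 := hdiv v
    rw [FF.ord_algebraMap] at h1
    have h2 : (m : ℤ) ≠ 0 := by exact_mod_cast hm0
    have h3 := (mul_eq_zero.mp h1.symm).resolve_left h2
    omega
  -- scaling does not change orders
  have hscale : ∀ (c : K), c ≠ 0 → ∀ (g : F), g ≠ 0 → ∀ v : Place K F, v.ord (c • g) = v.ord g := by
    intro c hc g hg v
    have : algebraMap K F c ≠ 0 := by simpa using hc
    rw [Algebra.smul_def, v.ord_mul this hg, FF.ord_algebraMap, zero_add]
  -- normalise `f`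
  obtain ⟨c₁, hc₁, hcfO, hcf⟩ := R.exists_normalise hf0
  have hcf0 : c₁ • f ≠ 0 := by intro h; rw [h] at hcf; simp at hcf
  obtain ⟨d, hd⟩ : ∃ d : k, R.red (c₁ • f) = algebraMap k F' d := by
    apply exists_eq_algebraMap_of_ord_nonneg
    intro w
    have h1 : ∀ v : Place K F, (m • (E - E₁)) v = v.ord (c₁ • f) := by
      intro v
      rw [hscale c₁ hc₁ f hf0, hdiv v, Finsupp.smul_apply, nsmul_eq_mul, Finsupp.sub_apply]
    rw [← R.r_div (c₁ • f) _ hcfO hcf h1 w, map_nsmul, map_sub, hrE, hrE₁, sub_self, smul_zero]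
    simp
  have hd0 : d ≠ 0 := by rintro rfl; rw [map_zero] at hd; exact hcf hd
  obtain ⟨c₂, hc₂A, hc₂⟩ := R.exists_res d⁻¹
  have hc₂0 : c₂ ≠ 0 := by rintro rfl; rw [R.res_zero] at hc₂; exact inv_ne_zero hd0 hc₂.symm
  have hf'O : c₂ • c₁ • f ∈ R.O := R.smul_mem hc₂A hcfO
  have hf'1 : R.red (c₂ • c₁ • f) = 1 := by
    rw [R.red_smul hc₂A hcfO, hd, hc₂, Algebra.smul_def, ← map_mul, inv_mul_cancel₀ hd0, map_one]
  have hf'K : ∀ c : K, c₂ • c₁ • f ≠ algebraMap K F c := by
    intro c h
    apply hfK (c₁⁻¹ * (c₂⁻¹ * c))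
    have h2 : f = c₁⁻¹ • (c₂⁻¹ • (c₂ • c₁ • f)) := by
      rw [smul_smul c₂⁻¹ c₂, inv_mul_cancel₀ hc₂0, one_smul, smul_smul, inv_mul_cancel₀ hc₁,
        one_smul]
    rw [h2, h]
    simp only [Algebra.smul_def, map_mul]
  obtain ⟨c₃, a, u, hc₃, ha0, haA, hares, huO, hu, hfu⟩ := R.exists_one_add hf'O hf'1 hf'K
  set f' : F := c₃ • c₂ • c₁ • f with hf'
  have hc₂f0 : c₂ • c₁ • f ≠ 0 := by intro h; rw [h] at hf'1; simp at hf'1
  have hf'0 : f' ≠ 0 := smul_ne_zero hc₃ hc₂f0
  -- the big divisor
  obtain ⟨B, hB⟩ := exists_degree_ge (K := K) (F := F)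
    (2 * (genusFF K F : ℤ) + Divisor.degree E' + 1)
  have hf'div : ∀ v : Place K F, v.ord f' = m * ((B - E₁) v - (B - E) v) := by
    intro v
    rw [hf', hscale c₃ hc₃ _ hc₂f0, hscale c₂ hc₂0 _ hcf0, hscale c₁ hc₁ _ hf0, hdiv v,
      Finsupp.sub_apply, Finsupp.sub_apply]
    ring
  have hMV : riemannRochSpace (B - E₁) ≤ riemannRochSpace B :=
    riemannRochSpace_mono' (sub_le_self _ hE₁)
  have hM'V : riemannRochSpace (B - E) ≤ riemannRochSpace B :=
    riemannRochSpace_mono' (sub_le_self _ hE)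
  have hdeg1 : Divisor.degree (B - E₁) = Divisor.degree B - Divisor.degree E' := by
    rw [map_sub, hdegE₁]
  have hdeg2 : Divisor.degree (B - E) = Divisor.degree B - Divisor.degree E' := by
    rw [map_sub, hdegE]
  have hredM : R.redSub (riemannRochSpace (B - E₁)) = riemannRochSpace (R.r B - E') := by
    rw [R.redSub_L_eq hg (by omega), map_sub, hrE₁]
  have hredM' : R.redSub (riemannRochSpace (B - E)) = riemannRochSpace (R.r B - E') := by
    rw [R.redSub_L_eq hg (by omega), map_sub, hrE]
  have hnle : ¬ riemannRochSpace (B - E₁) ≤ riemannRochSpace (B - E) := by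
    intro hle
    apply hne
    refine eq_of_le_of_degree_le ?_ (by rw [hdegE, hdegE₁])
    intro v
    obtain ⟨s, hs, hs0, hsv⟩ := exists_exact (D := B - E₁) (by omega) v
    have h1 := ((mem_riemannRochSpace_iff.mp (hle hs)) v).resolve_left hs0
    rw [hsv, Finsupp.sub_apply, Finsupp.sub_apply] at h1
    omega
  obtain ⟨b, hb0, hbA, hbres, hall, s₀, hs₀, hs₀O, t₀, ht₀, ht₀O, hst₀, ht₀'⟩ :=
    R.two_lattices hMV hM'V (hredM.trans hredM'.symm) hnle
  set D' : Divisor k F' := R.r B - E' with hD'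
  have hrD : R.r (m • (B - E₁)) = m • D' := by rw [map_nsmul, map_sub, hrE₁]
  -- existence of exact elements on the reduction
  have hexact : ∀ w : Place k F', ∃ s ∈ riemannRochSpace (B - E₁), s ∈ R.O ∧
      w.adicValuation (R.red s) = exp (D' w) := by
    intro w
    obtain ⟨s', hs', hs'0, hsw⟩ := exists_exact (D := D') (by
      rw [hD', map_sub, R.degree_r]; omega) w
    rw [← hredM] at hs'
    obtain ⟨s, hs, hsO, rfl⟩ := hs'
    refine ⟨s, hs, hsO, ?_⟩
    rw [w.adicValuation_eq_exp_neg_ord hs'0, hsw, neg_neg]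
  have hmF : (m : F') ≠ 0 := by
    have : (m : F') = algebraMap k F' m := by simp
    rw [this]
    exact (map_ne_zero _).mpr hm
  have hmval : ∀ w : Place k F', w.adicValuation (m : F') = 1 := by
    intro w
    have : (m : F') = algebraMap k F' m := by simp
    rw [w.adicValuation_eq_exp_neg_ord hmF, this, FF.ord_algebraMap, neg_zero, exp_zero]
  rcases lt_or_ge (R.A.valuation a) (R.A.valuation b) with hab | hab
  · -- Case I: `|a| < |b|`
    have hvb : R.A.valuation b ≠ 0 := (Valuation.ne_zero_iff _).mpr hb0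
    have hval : R.A.valuation (b⁻¹ * a) < 1 := by
      rw [map_mul, map_inv₀]
      calc (R.A.valuation b)⁻¹ * R.A.valuation a
          < (R.A.valuation b)⁻¹ * R.A.valuation b := by
            exact (mul_lt_mul_iff_right₀ (zero_lt_iff.mpr (inv_ne_zero hvb))).mpr hab
        _ = 1 := inv_mul_cancel₀ hvb
    have ha'A : b⁻¹ * a ∈ R.A := (R.A.valuation_le_one_iff _).mp hval.le
    have ha'0 : R.res (b⁻¹ * a) = 0 := (R.res_eq_zero_iff ha'A).mpr hval
    have claim : ∀ (w : Place k F') (s t : F), s ∈ riemannRochSpace (B - E₁) → s ∈ R.O →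
        t ∈ R.O → s + b • t ∈ riemannRochSpace (B - E) →
        w.adicValuation (R.red s) = exp (D' w) → w.adicValuation (R.red t) ≤ exp (D' w) := by
      intro w s t hs hsO htO hst hsw
      have h1 := R.claimZ (m := m) hfu hf'0 hf'div huO hs hsO htO hst (c := b) (a' := b⁻¹ * a)
        (b' := 1) (by rw [mul_inv_cancel_left₀ hb0]) (by rw [mul_one]) hb0 hbA hbres ha'A
        (one_mem _)
      rw [ha'0, zero_smul, sub_zero, R.res_one, one_smul, hrD] at h1
      have h2 := h1 w
      rw [map_mul, map_mul, map_pow, hmval, one_mul, hsw, Finsupp.smul_apply, nsmul_eq_mul] at h2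
      by_cases ht0 : R.red t = 0
      · rw [ht0, map_zero]; exact zero_le
      rw [w.adicValuation_eq_exp_neg_ord ht0, ← exp_nsmul, ← exp_add, exp_le_exp] at h2
      rw [w.adicValuation_eq_exp_neg_ord ht0, exp_le_exp]
      obtain ⟨m', rfl⟩ : ∃ m', m = m' + 1 := ⟨m - 1, by omega⟩
      simp only [Nat.add_sub_cancel, nsmul_eq_mul] at h2
      push_cast at h2
      linarith
    apply ht₀'
    rw [hredM]
    intro w
    by_contra hw
    rw [not_le] at hw
    obtain ⟨s₁, hs₁, hs₁O, hs₁w⟩ := hexact w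
    obtain ⟨t₁, ht₁, ht₁O, hst₁⟩ := hall s₁ hs₁ hs₁O
    have h1 := claim w s₁ t₁ hs₁ hs₁O ht₁O hst₁ hs₁w
    have h2 : w.adicValuation (R.red s₀) ≤ exp (D' w) := by
      have : R.red s₀ ∈ riemannRochSpace D' := by
        rw [← hredM]; exact R.red_mem_redSub hs₀ hs₀O
      exact this w
    rcases h2.lt_or_eq with h3 | h3
    · have h4 : w.adicValuation (R.red (s₀ + s₁)) = exp (D' w) := by
        rw [R.red_add hs₀O hs₁O, Valuation.map_add_eq_of_lt_right _ (by rw [hs₁w]; exact h3), hs₁w]
      have h5 := claim w (s₀ + s₁) (t₀ + t₁) (Submodule.add_mem _ hs₀ hs₁) (add_mem hs₀O hs₁O)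
        (add_mem ht₀O ht₁O) (by
          have := Submodule.add_mem _ hst₀ hst₁
          rw [smul_add]
          convert this using 1
          ring) h4
      rw [R.red_add ht₀O ht₁O, Valuation.map_add_eq_of_lt_left _ (lt_of_le_of_lt h1 hw)] at h5
      exact absurd hw (not_lt.mpr h5)
    · exact absurd hw (not_lt.mpr (claim w s₀ t₀ hs₀ hs₀O ht₀O hst₀ h3))
  · -- Case II: `|b| ≤ |a|`
    have hva : R.A.valuation a ≠ 0 := (Valuation.ne_zero_iff _).mpr ha0
    have hb'A : a⁻¹ * b ∈ R.A := by
      rw [← ValuationSubring.valuation_le_one_iff, map_mul, map_inv₀]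
      calc (R.A.valuation a)⁻¹ * R.A.valuation b
          ≤ (R.A.valuation a)⁻¹ * R.A.valuation a := mul_le_mul_right hab _
        _ = 1 := inv_mul_cancel₀ hva
    have huL : R.red u ∈ riemannRochSpace E' := by
      intro w
      obtain ⟨s, hs, hsO, hsw⟩ := hexact w
      obtain ⟨t, ht, htO, hst⟩ := hall s hs hsO
      have h1 := R.claimZ (m := m) hfu hf'0 hf'div huO hs hsO htO hst (c := a) (a' := 1)
        (b' := a⁻¹ * b) (by rw [mul_one]) (by rw [mul_inv_cancel_left₀ ha0]) ha0 haA hares
        (one_mem _) hb'A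
      rw [R.res_one, one_smul, hrD] at h1
      set z := R.res (a⁻¹ * b) • ((m : F') * R.red s ^ (m - 1) * R.red t) -
        R.red u * R.red s ^ m with hz
      have h2 := h1 w
      rw [Finsupp.smul_apply, nsmul_eq_mul] at h2
      have h3 : R.red u * R.red s ^ m =
          R.res (a⁻¹ * b) • ((m : F') * R.red s ^ (m - 1) * R.red t) - z := by
        rw [hz]; ring
      have h4 : w.adicValuation (R.res (a⁻¹ * b) • ((m : F') * R.red s ^ (m - 1) * R.red t)) ≤
          exp (m * D' w + E' w) := by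
        rw [Algebra.smul_def, map_mul, map_mul, map_mul, map_pow, hmval, one_mul, hsw]
        have h5 : w.adicValuation (R.red t) ≤ exp (R.r B w) := R.red_mem_L ht htO w
        calc w.adicValuation (algebraMap k F' (R.res (a⁻¹ * b))) *
              (exp (D' w) ^ (m - 1) * w.adicValuation (R.red t))
            ≤ 1 * (exp (D' w) ^ (m - 1) * exp (R.r B w)) :=
              mul_le_mul' (w.adicValuation_algebraMap_le_one _) (mul_le_mul_right h5 _)
          _ = exp (m * D' w + E' w) := by
              rw [one_mul, ← exp_nsmul, ← exp_add]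
              congr 1
              obtain ⟨m', rfl⟩ : ∃ m', m = m' + 1 := ⟨m - 1, by omega⟩
              simp only [Nat.add_sub_cancel, nsmul_eq_mul]
              have h6 : R.r B w = D' w + E' w := by
                rw [hD', Finsupp.sub_apply]; ring
              rw [h6]
              push_cast
              ring
      have h5 : w.adicValuation z ≤ exp (m * D' w + E' w) := by
        refine h2.trans (exp_le_exp.mpr ?_)
        have : 0 ≤ E' w := hE' w
        omega
      have h6 : w.adicValuation (R.red u * R.red s ^ m) ≤ exp (m * D' w + E' w) := by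
        rw [h3]
        exact (Valuation.map_sub _ _ _).trans (max_le h4 h5)
      rw [map_mul, map_pow, hsw] at h6
      by_cases hu0 : R.red u = 0
      · rw [hu0, map_zero]; exact zero_le
      rw [w.adicValuation_eq_exp_neg_ord hu0, ← exp_nsmul, ← exp_add, exp_le_exp,
        nsmul_eq_mul] at h6
      rw [w.adicValuation_eq_exp_neg_ord hu0, exp_le_exp]
      linarith
    obtain ⟨c, hc⟩ := exists_eq_algebraMap hE' hell huL
    exact hu c hc

/-- **Torsion injectivity**: a divisor class of order prime to the residue characteristic whose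
reduction is trivial is trivial. -/
theorem isPrincipal_of_torsion (hg : genusFF K F ≤ genusFF k F') {m : ℕ} (hm : (m : k) ≠ 0)
    {D : Divisor K F} (hD : Divisor.degree D = 0) (hmD : Divisor.IsPrincipal (m • D))
    (hrD : Divisor.IsPrincipal (R.r D)) : Divisor.IsPrincipal D := by
  have hg' := R.genus_le
  obtain ⟨h', hh'0, hh'⟩ := hrD
  obtain ⟨h, hhO, rfl⟩ := R.exists_red h'
  have hh0 : h ≠ 0 := by rintro rfl; simp at hh'0
  obtain ⟨φ, hφ0, hφ⟩ := hmD
  -- `D₀ = D - div h` has trivial reduction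
  set D₀ : Divisor K F := D - div h with hD₀
  have hrD₀ : R.r D₀ = 0 := by
    ext w
    rw [hD₀, map_sub, Finsupp.sub_apply, hh' w,
      R.r_div h (div h) hhO hh'0 (fun v => div_apply h v) w, sub_self]
    simp
  obtain ⟨E', hE', hdegE', hell⟩ := exists_nonspecial (K := k) (F := F')
  obtain ⟨E₁, hE₁, hrE₁⟩ := R.exists_lift_effective hg E' hE'
  have hdegE₁ : Divisor.degree E₁ = genusFF k F' := by rw [← R.degree_r, hrE₁, hdegE']
  have hdegD₀ : Divisor.degree D₀ = 0 := by rw [hD₀, map_sub, hD, degree_div, sub_zero]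
  obtain ⟨y, hy, hy0⟩ := exists_ne_zero_of_degree (D := D₀ + E₁) (by
    rw [map_add, hdegD₀, hdegE₁]; omega)
  obtain ⟨c, hc, hcyO, hcy⟩ := R.exists_normalise hy0
  have hcy0 : c • y ≠ 0 := smul_ne_zero hc hy0
  have hcyL : c • y ∈ riemannRochSpace (D₀ + E₁) := Submodule.smul_mem _ _ hy
  set E : Divisor K F := D₀ + E₁ + div (c • y) with hEdef
  have hE : 0 ≤ E := by
    have := (mem_riemannRochSpace_iff_div hcy0).mp hcyL
    rwa [add_comm] at this
  have hrE : R.r E = E' := by
    have h1 : R.red (c • y) ∈ riemannRochSpace E' := by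
      have := R.red_mem_L hcyL hcyO
      rwa [map_add, hrD₀, zero_add, hrE₁] at this
    obtain ⟨d, hd⟩ := exists_eq_algebraMap hE' hell h1
    have h2 : R.r (div (c • y)) = 0 := by
      ext w
      rw [R.r_div (c • y) (div (c • y)) hcyO hcy (fun v => div_apply _ v) w, hd,
        FF.ord_algebraMap]
      simp
    rw [hEdef, map_add, map_add, hrD₀, zero_add, hrE₁, h2, add_zero]
  have hEE₁ : E = E₁ := by
    refine R.key hg hm hE hE₁ hrE hrE₁ hell (f := φ * (h⁻¹ * (c • y)) ^ m)
      (mul_ne_zero hφ0 (pow_ne_zero _ (mul_ne_zero (inv_ne_zero hh0) hcy0))) ?_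
    intro v
    rw [v.ord_mul hφ0 (pow_ne_zero _ (mul_ne_zero (inv_ne_zero hh0) hcy0)), FF.ord_pow,
      v.ord_mul (inv_ne_zero hh0) hcy0, v.ord_inv, ← hφ v, hEdef, hD₀]
    simp only [Finsupp.add_apply, Finsupp.sub_apply, Finsupp.smul_apply, nsmul_eq_mul, div_apply]
    ring
  refine ⟨h * (c • y)⁻¹, mul_ne_zero hh0 (inv_ne_zero hcy0), ?_⟩
  intro v
  have h1 : E v = E₁ v := by rw [hEE₁]
  rw [hEdef, hD₀] at h1
  simp only [Finsupp.add_apply, Finsupp.sub_apply, div_apply] at h1
  rw [v.ord_mul hh0 (inv_ne_zero hcy0), v.ord_inv]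
  omega

end RedData

end Fermat.Agent.RedInj
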