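import Mathlib

/-!
# Injectivity of reduction on prime-to-residue-characteristic torsion: the approximation step

`R` is a ring with a non-zero-divisor `π`, `red : R → κ` is surjective with kernel `(π)`.
`G : R` reduces to `hb ^ m`.  We construct, modulo every power of `π`, elements `f ∈ MD`
with `f ^ m ≡ G`.
-/

set_option autoImplicit false

namespace Fermat.Agent.RedInj

variable {R κ : Type*} [CommRing R] [IsDomain R] [Field κ]

/-- The hypotheses of the approximation theorem. -/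
structure Datum (π : R) (red : R →+* κ) (m : ℕ) (G : R) (hb : κ) (X : R)
    (MD Mm M2 : Set R) (Bf Bi : Subring κ) : Prop where
  pi_ne : π ≠ 0
  red_pi : red π = 0
  ker : ∀ x, red x = 0 → ∃ y, x = π * y
  surj : Function.Surjective red
  m_ne : (m : κ) ≠ 0
  hb_ne : hb ≠ 0
  red_G : red G = hb ^ m
  red_X : red X ≠ 0
  MD_sub : ∀ f ∈ MD, ∀ s ∈ MD, ∀ c : R, (∃ i : ℕ, c = π ^ i) → f - c * s ∈ MD
  /-- `f ^ m / G ∈ Mm` -/
  MD_pow : ∀ f ∈ MD, ∃ y ∈ Mm, f ^ m = G * y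
  one_mem : (1 : R) ∈ Mm
  X_mem : X ^ m ∈ Mm
  Mm_sub : ∀ x ∈ Mm, ∀ y ∈ Mm, x - y ∈ Mm
  Mm_sat : ∀ y, π * y ∈ Mm → y ∈ Mm
  M2_mem : ∀ f ∈ MD, ∀ g ∈ MD, X * f - g ∈ M2
  M2_sat : ∀ y, π * y ∈ M2 → y ∈ M2
  X_Bf : red X ∈ Bf
  X_Bi : (red X)⁻¹ ∈ Bi
  m_Bf : ((m : κ))⁻¹ ∈ Bf
  m_Bi : ((m : κ))⁻¹ ∈ Bi
  Mm_Bf : ∀ y ∈ Mm, red y ∈ Bf
  Mm_Bi : ∀ y ∈ Mm, red y * (red X)⁻¹ ^ m ∈ Bi
  M2_Bf : ∀ y ∈ M2, red y * hb⁻¹ ∈ Bf
  M2_Bi : ∀ y ∈ M2, red y * hb⁻¹ * (red X)⁻¹ ^ 2 ∈ Bi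
  MD_surj : ∀ a ∈ Bf, a * (red X)⁻¹ ∈ Bi → ∃ f ∈ MD, red f = hb * a

namespace Datum

variable {π : R} {red : R →+* κ} {m : ℕ} {G : R} {hb : κ} {X : R}
    {MD Mm M2 : Set R} {Bf Bi : Subring κ}

omit [IsDomain R] in
lemma m_pos (D : Datum π red m G hb X MD Mm M2 Bf Bi) : m ≠ 0 := by
  rintro rfl
  exact D.m_ne (by simp)

omit [IsDomain R] in
lemma dvd_of_red (D : Datum π red m G hb X MD Mm M2 Bf Bi) {x : R} (h : red x = 0) : π ∣ x := by
  obtain ⟨y, hy⟩ := D.ker x h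
  exact ⟨y, hy⟩

omit [IsDomain R] in
lemma red_of_dvd (D : Datum π red m G hb X MD Mm M2 Bf Bi) {x : R} (h : π ∣ x) : red x = 0 := by
  obtain ⟨y, rfl⟩ := h
  rw [map_mul, D.red_pi, zero_mul]

/-- `π ^ i ∣ u * y` and `red u ≠ 0` imply `π ^ i ∣ y`. -/
lemma pow_dvd_of_mul (D : Datum π red m G hb X MD Mm M2 Bf Bi) {u : R} (hu : red u ≠ 0) (i : ℕ) :
    ∀ {y : R}, π ^ i ∣ u * y → π ^ i ∣ y := by
  induction i with
  | zero => intro y _; simp
  | succ i ih =>
    intro y hy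
    have h1 : red (u * y) = 0 := D.red_of_dvd ((dvd_pow_self π (Nat.succ_ne_zero i)).trans hy)
    rw [map_mul, mul_eq_zero] at h1
    obtain ⟨y', rfl⟩ := D.dvd_of_red (h1.resolve_left hu)
    have h2 : π ^ i ∣ u * y' := by
      have : π * π ^ i ∣ π * (u * y') := by
        rw [← pow_succ', show π * (u * y') = u * (π * y') by ring]; exact hy
      exact (mul_dvd_mul_iff_left D.pi_ne).mp this
    rw [pow_succ']
    exact mul_dvd_mul_left _ (ih h2)

omit [IsDomain R] in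
lemma Mm_sat_pow (D : Datum π red m G hb X MD Mm M2 Bf Bi) (i : ℕ) :
    ∀ {y : R}, π ^ i * y ∈ Mm → y ∈ Mm := by
  induction i with
  | zero => intro y h; simpa using h
  | succ i ih =>
    intro y h
    exact D.Mm_sat _ (ih (by rw [← mul_assoc, ← pow_succ]; exact h))

omit [IsDomain R] in
lemma M2_sat_pow (D : Datum π red m G hb X MD Mm M2 Bf Bi) (i : ℕ) :
    ∀ {y : R}, π ^ i * y ∈ M2 → y ∈ M2 := by
  induction i with
  | zero => intro y h; simpa using h
  | succ i ih =>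
    intro y h
    exact D.M2_sat _ (ih (by rw [← mul_assoc, ← pow_succ]; exact h))

omit [IsDomain R] in
/-- binomial expansion modulo `π ^ (i+1)`, `i ≥ 1`. -/
lemma add_pow_expand (i : ℕ) (hi : 1 ≤ i) (m : ℕ) (π u a : R) :
    ∃ z, (u + π ^ i * a) ^ m = u ^ m + π ^ i * ((m : R) * u ^ (m - 1) * a + π * z) := by
  obtain ⟨i, rfl⟩ : ∃ j, i = j + 1 := ⟨i - 1, by omega⟩
  induction m with
  | zero => exact ⟨0, by simp⟩
  | succ m ih =>
    obtain ⟨z, hz⟩ := ih
    rcases Nat.eq_zero_or_pos m with rfl | hm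
    · exact ⟨0, by simp⟩
    · obtain ⟨n, rfl⟩ : ∃ n, m = n + 1 := ⟨m - 1, by omega⟩
      refine ⟨z * (u + π ^ (i + 1) * a) + π ^ i * ((n + 1 : ℕ) : R) * u ^ n * a ^ 2, ?_⟩
      rw [pow_succ (u + π ^ (i + 1) * a), hz]
      simp only [Nat.add_sub_cancel]
      push_cast
      ring

/-- Newton step for the root. -/
lemma exists_root_step (D : Datum π red m G hb X MD Mm M2 Bf Bi) (i : ℕ) (hi : 1 ≤ i) (U : R)
    (hU : red U = hb) (h : π ^ i ∣ U ^ m - G) :
    ∃ U', red U' = hb ∧ π ^ (i + 1) ∣ U' ^ m - G ∧ π ^ i ∣ U' - U := by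
  obtain ⟨c, hc⟩ := h
  have hne : (m : κ) * hb ^ (m - 1) ≠ 0 := mul_ne_zero D.m_ne (pow_ne_zero _ D.hb_ne)
  obtain ⟨d, hd⟩ := D.surj (-(red c) * ((m : κ) * hb ^ (m - 1))⁻¹)
  obtain ⟨z, hz⟩ := add_pow_expand i hi m π U d
  refine ⟨U + π ^ i * d, ?_, ?_, ?_⟩
  · rw [map_add, map_mul, map_pow, D.red_pi, zero_pow (by omega), zero_mul, add_zero, hU]
  · have h1 : (U + π ^ i * d) ^ m - G = π ^ i * (c + (m : R) * U ^ (m - 1) * d + π * z) := by
      rw [hz, sub_eq_iff_eq_add.mp hc]; ring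
    rw [h1, pow_succ]
    refine mul_dvd_mul_left _ (dvd_add (D.dvd_of_red ?_) (dvd_mul_right _ _))
    rw [map_add, map_mul, map_mul, map_pow, map_natCast, hU, hd]
    have hm' := D.m_ne
    have hp : hb ^ (m - 1) ≠ 0 := pow_ne_zero _ D.hb_ne
    rw [mul_comm (-red c), ← mul_assoc, mul_inv_cancel₀ hne]
    ring
  · simp

/-- The approximation theorem. -/
theorem approx (D : Datum π red m G hb X MD Mm M2 Bf Bi) (i : ℕ) (hi : 1 ≤ i) :
    ∃ U f fX : R, red U = hb ∧ π ^ i ∣ U ^ m - G ∧ f ∈ MD ∧ fX ∈ MD ∧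
      π ^ i ∣ f - U ∧ π ^ i ∣ fX - U * X := by
  induction i, hi using Nat.le_induction with
  | base =>
    obtain ⟨U, hU⟩ := D.surj hb
    obtain ⟨f, hf, hf'⟩ := D.MD_surj 1 (Subring.one_mem _) (by rw [one_mul]; exact D.X_Bi)
    obtain ⟨fX, hfX, hfX'⟩ := D.MD_surj (red X) D.X_Bf (by
      rw [mul_inv_cancel₀ D.red_X]; exact Subring.one_mem _)
    refine ⟨U, f, fX, hU, ?_, hf, hfX, ?_, ?_⟩
    · rw [pow_one]; exact D.dvd_of_red (by rw [map_sub, map_pow, hU, D.red_G, sub_self])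
    · rw [pow_one]; exact D.dvd_of_red (by rw [map_sub, hU, hf', mul_one, sub_self])
    · rw [pow_one]; exact D.dvd_of_red (by rw [map_sub, map_mul, hU, hfX', sub_self])
  | succ i hi ih =>
    obtain ⟨U₀, f, fX, hU₀, hG₀, hf, hfX, h1₀, hX₀⟩ := ih
    obtain ⟨U, hU, hG, hUU⟩ := D.exists_root_step i hi U₀ hU₀ hG₀
    have h1 : π ^ i ∣ f - U := by
      have := dvd_sub h1₀ hUU
      rwa [show f - U₀ - (U - U₀) = f - U by ring] at this
    have hX : π ^ i ∣ fX - U * X := by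
      have := dvd_sub hX₀ (Dvd.dvd.mul_right hUU X)
      rwa [show fX - U₀ * X - (U - U₀) * X = fX - U * X by ring] at this
    obtain ⟨a, ha⟩ := h1
    obtain ⟨b, hb'⟩ := hX
    obtain ⟨w, hw⟩ := hG
    have hpi : π ^ (i + 1) = π ^ i * π := pow_succ _ _
    have hmp : m ≠ 0 := D.m_pos
    have hredG : red G ≠ 0 := by rw [D.red_G]; exact pow_ne_zero _ D.hb_ne
    have hbm : hb ^ m = hb ^ (m - 1) * hb := by
      rw [← pow_succ, Nat.sub_add_cancel (Nat.one_le_iff_ne_zero.mpr hmp)]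
    have hp : hb ^ (m - 1) ≠ 0 := pow_ne_zero _ D.hb_ne
    have hh := D.hb_ne
    have hm' := D.m_ne
    have hX' := D.red_X
    -- relation (1) for `f`
    have rel1 : red a * hb⁻¹ ∈ Bf := by
      obtain ⟨y, hy, hfy⟩ := D.MD_pow f hf
      obtain ⟨z, hz⟩ := add_pow_expand i hi m π U a
      have hfU : f = U + π ^ i * a := by rw [← ha]; ring
      have e1 : G * (y - 1) = π ^ i * ((m : R) * U ^ (m - 1) * a + π * (z + w)) := by
        have : G * (y - 1) = f ^ m - G := by rw [hfy]; ring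
        rw [this, hfU, hz]
        linear_combination hw + w * hpi
      obtain ⟨y', hy'⟩ := D.pow_dvd_of_mul hredG i ⟨_, e1⟩
      have hy'm : y' ∈ Mm := D.Mm_sat_pow i (by rw [← hy']; exact D.Mm_sub _ hy _ D.one_mem)
      have e2 : G * y' = (m : R) * U ^ (m - 1) * a + π * (z + w) := by
        have : π ^ i * (G * y') = π ^ i * ((m : R) * U ^ (m - 1) * a + π * (z + w)) := by
          rw [← e1, hy']; ring
        exact mul_left_cancel₀ (pow_ne_zero i D.pi_ne) this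
      have e3 := congrArg red e2
      rw [map_mul, map_add, map_mul, map_mul, map_mul, map_pow, map_natCast, D.red_pi, zero_mul,
        add_zero, hU, D.red_G, hbm] at e3
      have e4 : red a * hb⁻¹ = red y' * (m : κ)⁻¹ := by
        have e5 : hb ^ (m - 1) * (hb * red y') = hb ^ (m - 1) * ((m : κ) * red a) := by
          linear_combination e3
        have e6 := mul_left_cancel₀ hp e5
        field_simp
        linear_combination -e6
      rw [e4]
      exact Subring.mul_mem _ (D.Mm_Bf _ hy'm) D.m_Bf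
    -- relation (1) for `fX`
    have rel1X : red b * hb⁻¹ * (red X)⁻¹ ∈ Bi := by
      obtain ⟨y, hy, hfy⟩ := D.MD_pow fX hfX
      obtain ⟨z, hz⟩ := add_pow_expand i hi m π (U * X) b
      have hfU : fX = U * X + π ^ i * b := by rw [← hb']; ring
      have e1 : G * (y - X ^ m) =
          π ^ i * ((m : R) * (U * X) ^ (m - 1) * b + π * (z + w * X ^ m)) := by
        have : G * (y - X ^ m) = fX ^ m - G * X ^ m := by rw [hfy]; ring
        rw [this, hfU, hz, mul_pow]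
        linear_combination X ^ m * hw + X ^ m * w * hpi
      obtain ⟨y', hy'⟩ := D.pow_dvd_of_mul hredG i ⟨_, e1⟩
      have hy'm : y' ∈ Mm := D.Mm_sat_pow i (by rw [← hy']; exact D.Mm_sub _ hy _ D.X_mem)
      have e2 : G * y' = (m : R) * (U * X) ^ (m - 1) * b + π * (z + w * X ^ m) := by
        have : π ^ i * (G * y') =
            π ^ i * ((m : R) * (U * X) ^ (m - 1) * b + π * (z + w * X ^ m)) := by
          rw [← e1, hy']; ring
        exact mul_left_cancel₀ (pow_ne_zero i D.pi_ne) this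
      have e3 := congrArg red e2
      rw [map_mul, map_add, map_mul, map_mul, map_mul, map_pow, map_mul, map_natCast, D.red_pi,
        zero_mul, add_zero, hU, D.red_G, hbm] at e3
      have hXm : red X ^ m = red X ^ (m - 1) * red X := by
        rw [← pow_succ, Nat.sub_add_cancel (Nat.one_le_iff_ne_zero.mpr hmp)]
      have hpX : red X ^ (m - 1) ≠ 0 := pow_ne_zero _ D.red_X
      have e4 : red b * hb⁻¹ * (red X)⁻¹ = red y' * (red X)⁻¹ ^ m * (m : κ)⁻¹ := by
        have e5 : hb ^ (m - 1) * (hb * red y') =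
            hb ^ (m - 1) * ((m : κ) * red X ^ (m - 1) * red b) := by
          rw [mul_pow] at e3
          linear_combination e3
        have e6 := mul_left_cancel₀ hp e5
        rw [inv_pow, hXm]
        field_simp
        linear_combination -e6
      rw [e4]
      exact Subring.mul_mem _ (D.Mm_Bi _ hy'm) D.m_Bi
    -- relation (2)
    obtain ⟨y, hy, hyab⟩ : ∃ y ∈ M2, y = X * a - b := by
      have e : X * f - fX = π ^ i * (X * a - b) := by
        linear_combination X * ha - hb'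
      exact ⟨X * a - b, D.M2_sat_pow i (by rw [← e]; exact D.M2_mem _ hf _ hfX), rfl⟩
    have rel2f := D.M2_Bf y hy
    have rel2i := D.M2_Bi y hy
    rw [hyab, map_sub, map_mul] at rel2f rel2i
    have hbf : red b * hb⁻¹ ∈ Bf := by
      have := Subring.sub_mem _ (Subring.mul_mem _ D.X_Bf rel1) rel2f
      rwa [show red X * (red a * hb⁻¹) - (red X * red a - red b) * hb⁻¹ = red b * hb⁻¹ by ring]
        at this
    have hai : red a * hb⁻¹ * (red X)⁻¹ ∈ Bi := by
      have := Subring.add_mem _ rel2i (Subring.mul_mem _ rel1X D.X_Bi)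
      rwa [show (red X * red a - red b) * hb⁻¹ * (red X)⁻¹ ^ 2 +
        red b * hb⁻¹ * (red X)⁻¹ * (red X)⁻¹ = red a * hb⁻¹ * (red X)⁻¹ by
          field_simp; ring] at this
    obtain ⟨s, hs, hs'⟩ := D.MD_surj _ rel1 hai
    obtain ⟨t, ht, ht'⟩ := D.MD_surj _ hbf rel1X
    refine ⟨U, f - π ^ i * s, fX - π ^ i * t, hU, ⟨w, hw⟩, D.MD_sub _ hf _ hs _ ⟨i, rfl⟩,
      D.MD_sub _ hfX _ ht _ ⟨i, rfl⟩, ?_, ?_⟩
    · have : f - π ^ i * s - U = π ^ i * (a - s) := by
        linear_combination ha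
      rw [this, pow_succ]
      refine mul_dvd_mul_left _ (D.dvd_of_red ?_)
      rw [map_sub, hs']
      field_simp
      ring
    · have : fX - π ^ i * t - U * X = π ^ i * (b - t) := by
        linear_combination hb'
      rw [this, pow_succ]
      refine mul_dvd_mul_left _ (D.dvd_of_red ?_)
      rw [map_sub, ht']
      field_simp
      ring

/-- For every `i` there is `f ∈ MD` with `f ^ m ≡ G` modulo `π ^ i`. -/
theorem exists_pow_congr (D : Datum π red m G hb X MD Mm M2 Bf Bi) (i : ℕ) :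
    ∃ f ∈ MD, π ^ i ∣ f ^ m - G := by
  obtain ⟨U, f, -, -, hG, hf, -, h1, -⟩ := D.approx (i + 1) (by omega)
  refine ⟨f, hf, ?_⟩
  have h2 : f - U ∣ f ^ m - U ^ m := sub_dvd_pow_sub_pow f U m
  have h3 : π ^ (i + 1) ∣ f ^ m - G := by
    have := dvd_add (h1.trans h2) hG
    rwa [show f ^ m - U ^ m + (U ^ m - G) = f ^ m - G by ring] at this
  exact (pow_dvd_pow π (Nat.le_succ i)).trans h3

end Datum

end Fermat.Agent.RedInj
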