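import Fermat.Agent.RedInj.Torsion

/-!
# Injectivity of reduction, completion form, for arbitrary `m`

If `m • D = div f` and `f` is an `m`-th power in the completion of `F` for the Gauss valuation
then `D` is principal. Here `m` may be divisible by the residue characteristic.
-/

set_option autoImplicit false

open AlgebraicCurve WithZero Module Submodule
open scoped IntermediateField

namespace Fermat.Agent.RedInj

open Fermat.Agent.RR Fermat.Agent.FF

section poly

variable {k F' : Type*} [Field k] [Field F'] [Algebra k F']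

/-- integrality argument -/
theorem val_le_of_poly (w : Place k F') {m : ℕ} {η : ℕ → k} {i₀ : ℕ} (hi₀ : i₀ ∈ Finset.Icc 1 m)
    (hη : η i₀ ≠ 0) {s τ : F'} (hs : s ≠ 0)
    (h : w.adicValuation (∑ i ∈ Finset.Icc 1 m, η i • (s ^ (m - i) * τ ^ i)) ≤
      w.adicValuation s ^ m) : w.adicValuation τ ≤ w.adicValuation s := by
  classical
  by_contra hcon
  rw [not_le] at hcon
  have hvs : w.adicValuation s ≠ 0 := w.adicValuation_ne_zero hs
  set ρ : F' := τ / s with hρ
  have hρ1 : 1 < w.adicValuation ρ := by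
    rw [hρ, map_div₀, one_lt_div₀ (zero_lt_iff.mpr hvs)]
    exact hcon
  set θ : F' := ∑ i ∈ Finset.Icc 1 m, η i • ρ ^ i with hθ
  have hθ' : ∑ i ∈ Finset.Icc 1 m, η i • (s ^ (m - i) * τ ^ i) = s ^ m * θ := by
    rw [hθ, Finset.mul_sum]
    refine Finset.sum_congr rfl fun i hi => ?_
    rw [Finset.mem_Icc] at hi
    rw [mul_smul_comm]
    congr 1
    have h1 : s ^ m = s ^ (m - i) * s ^ i := by rw [← pow_add, Nat.sub_add_cancel hi.2]
    rw [h1, mul_assoc, ← mul_pow, hρ, mul_div_cancel₀ _ hs]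
  rw [hθ', map_mul, map_pow] at h
  have hθ1 : w.adicValuation θ ≤ 1 := by
    have h2 : 0 < w.adicValuation s ^ m := zero_lt_iff.mpr (pow_ne_zero _ hvs)
    by_contra h3
    rw [not_le] at h3
    have h4 : w.adicValuation s ^ m * 1 < w.adicValuation s ^ m * w.adicValuation θ :=
      (mul_lt_mul_iff_right₀ h2).mpr h3
    rw [mul_one] at h4
    exact absurd h (not_le.mpr h4)
  -- the largest index with nonzero coefficient
  obtain ⟨i₁, hi₁, hmax⟩ := ((Finset.Icc 1 m).filter fun i => η i ≠ 0).exists_max_image id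
    ⟨i₀, by simp only [Finset.mem_filter]; exact ⟨hi₀, hη⟩⟩
  rw [Finset.mem_filter] at hi₁
  have hi₁1 : 1 ≤ i₁ := (Finset.mem_Icc.mp hi₁.1).1
  have hsum : η i₁ • ρ ^ i₁ = θ - ∑ i ∈ (Finset.Icc 1 m).erase i₁, η i • ρ ^ i := by
    rw [hθ, ← Finset.add_sum_erase _ _ hi₁.1]; ring
  have hval1 : w.adicValuation (η i₁ • ρ ^ i₁) = w.adicValuation ρ ^ i₁ := by
    rw [Algebra.smul_def, map_mul, map_pow,
      w.adicValuation_eq_exp_neg_ord ((map_ne_zero _).mpr hi₁.2), FF.ord_algebraMap, neg_zero,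
      exp_zero, one_mul]
  have hlt : ∀ i ∈ (Finset.Icc 1 m).erase i₁,
      w.adicValuation (η i • ρ ^ i) < w.adicValuation ρ ^ i₁ := by
    intro i hi
    by_cases h0 : η i = 0
    · rw [h0, zero_smul, map_zero]
      exact zero_lt_iff.mpr (pow_ne_zero _ (ne_of_gt (lt_trans zero_lt_one hρ1)))
    · have h1 := hmax i (by
        rw [Finset.mem_filter]; exact ⟨Finset.mem_of_mem_erase hi, h0⟩)
      have h2 : i < i₁ := lt_of_le_of_ne h1 (Finset.ne_of_mem_erase hi)
      rw [Algebra.smul_def, map_mul, map_pow]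
      calc w.adicValuation (algebraMap k F' (η i)) * w.adicValuation ρ ^ i
          ≤ 1 * w.adicValuation ρ ^ i := mul_le_mul_left (w.adicValuation_algebraMap_le_one _) _
        _ = w.adicValuation ρ ^ i := one_mul _
        _ < w.adicValuation ρ ^ i₁ := pow_lt_pow_right₀ hρ1 h2
  have h1lt : 1 < w.adicValuation ρ ^ i₁ := one_lt_pow₀ hρ1 (by omega)
  have hfin : w.adicValuation (η i₁ • ρ ^ i₁) < w.adicValuation ρ ^ i₁ := by
    rw [hsum]
    refine lt_of_le_of_lt (Valuation.map_sub _ _ _) (max_lt (lt_of_le_of_lt hθ1 h1lt) ?_)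
    exact Valuation.map_sum_lt _ (ne_of_gt (lt_trans zero_lt_one h1lt)) hlt
  rw [hval1] at hfin
  exact lt_irrefl _ hfin

end poly

namespace RedData

variable {K F k F' : Type*} [Field K] [Field F] [Field k] [Field F']
    [Algebra K F] [Algebra k F'] (R : RedData K F k F')

/-- `f` is an `m`-th power in the completion for the Gauss valuation. -/
def PowerApprox (m : ℕ) (f : F) : Prop :=
  ∀ c : K, c ≠ 0 → c ∈ R.A → ∃ h ∈ R.O, ∃ w ∈ R.O, f = h ^ m + c • w

variable {R}

theorem PowerApprox.mul_pow {m : ℕ} {f : F} (hf : R.PowerApprox m f) {y : F} (hy : y ∈ R.O) :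
    R.PowerApprox m (f * y ^ m) := by
  intro c hc hcA
  obtain ⟨h, hh, w, hw, rfl⟩ := hf c hc hcA
  exact ⟨h * y, mul_mem hh hy, w * y ^ m, mul_mem hw (pow_mem hy _), by
    rw [_root_.mul_pow, add_mul, smul_mul_assoc]⟩

variable (R)

/-- if `f = g⁻¹ (1 + a u)`, `u` not congruent to a constant, then `f` is not congruent to a
constant modulo `a ^ 2`. -/
theorem not_const_approx {f : F} {g a : K} {u : F} (ha : a ≠ 0) (haA : a ∈ R.A)
    (hares : R.res a = 0) (hgA : g ∈ R.A) (huO : u ∈ R.O)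
    (hu : ∀ c : k, R.red u ≠ algebraMap k F' c) (hfu : g • f = 1 + a • u) {κ : K} {w : F}
    (hw : w ∈ R.O) (h : f = algebraMap K F κ + (a * a) • w) : False := by
  have h1 : u = algebraMap K F (a⁻¹ * (g * κ - 1)) + (a * g) • w := by
    have h2 : a • u = algebraMap K F (g * κ - 1) + (a * (a * g)) • w := by
      have h3 : a • u = g • f - 1 := by rw [hfu]; ring
      rw [h3, h]
      simp only [Algebra.smul_def, map_mul, map_sub, map_one]
      ring
    have h4 : u = a⁻¹ • (a • u) := by rw [smul_smul, inv_mul_cancel₀ ha, one_smul]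
    rw [h4, h2, smul_add, smul_smul, inv_mul_cancel_left₀ ha, Algebra.smul_def, ← map_mul]
  have hagw : (a * g) • w ∈ R.O := R.smul_mem (mul_mem haA hgA) hw
  have h5 : algebraMap K F (a⁻¹ * (g * κ - 1)) ∈ R.O := by
    have : algebraMap K F (a⁻¹ * (g * κ - 1)) = u - (a * g) • w := by rw [h1]; ring
    rw [this]
    exact sub_mem huO hagw
  have h6 := (R.mem_iff _).mp h5
  apply hu (R.res (a⁻¹ * (g * κ - 1)))
  rw [h1, R.red_add h5 hagw, R.red_smul (mul_mem haA hgA) hw, R.res_mul haA hgA, hares, zero_mul,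
    zero_smul, add_zero, R.red_algebraMap h6]

/-- the data attached to a nonconstant `f` which is an `m`-th power in the completion. -/
theorem exists_good_approx [IsFF k F'] [IsAlgClosed k] {m : ℕ} (hm : m ≠ 0) {f : F}
    (hfO : f ∈ R.O) (hf1 : R.red f = 1) (hfK : ∀ c : K, f ≠ algebraMap K F c)
    (happ : R.PowerApprox m f) :
    ∃ (κ c e : K) (z w : F), κ ≠ 0 ∧ c ≠ 0 ∧ c ∈ R.A ∧ e ≠ 0 ∧ e ∈ R.A ∧ R.res e = 0 ∧
      z ∈ R.O ∧ w ∈ R.O ∧ R.res c = 0 ∧
      (∀ x : k, R.red z ≠ algebraMap k F' x) ∧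
      κ • f = (1 + e • z) ^ m + c • w ∧
      (∀ (κ' : K) (w' : F), w' ∈ R.O → κ • f ≠ algebraMap K F κ' + c • w') := by
  obtain ⟨g, a, u, hg, ha, haA, hares, huO, hu, hfu⟩ := R.exists_one_add hfO hf1 hfK
  -- `g` is a unit of `A`
  have hgA : g ∈ R.A ∧ g⁻¹ ∈ R.A := by
    have h1 : g • f ∈ R.O := by
      rw [hfu]; exact add_mem (one_mem _) (R.smul_mem haA huO)
    have h2 : R.red (g • f) = 1 := by
      rw [hfu, R.red_add (one_mem _) (R.smul_mem haA huO), R.red_smul haA huO, hares, zero_smul,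
        add_zero, R.red_one]
    have hfinv := R.inv_mem_of_red_ne hfO (by rw [hf1]; exact one_ne_zero)
    have hf0 : f ≠ 0 := by rintro rfl; simp at hf1
    have h3 : algebraMap K F g ∈ R.O := by
      have : algebraMap K F g = (g • f) * f⁻¹ := by
        rw [Algebra.smul_def, mul_assoc, mul_inv_cancel₀ hf0, mul_one]
      rw [this]
      exact mul_mem h1 hfinv
    have h4 := R.inv_mem_of_red_ne h1 (by rw [h2]; exact one_ne_zero)
    have h5 : algebraMap K F g⁻¹ ∈ R.O := by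
      have : algebraMap K F g⁻¹ = (g • f)⁻¹ * f := by
        rw [Algebra.smul_def, mul_inv (algebraMap K F g) f, mul_assoc, inv_mul_cancel₀ hf0,
          mul_one, map_inv₀]
      rw [this]
      exact mul_mem h4 hfO
    exact ⟨(R.mem_iff _).mp h3, (R.mem_iff _).mp h5⟩
  obtain ⟨h, hhO, w, hwO, hfh⟩ := happ (a * a) (mul_ne_zero ha ha) (mul_mem haA haA)
  have haa : R.res (a * a) = 0 := by rw [R.res_mul haA haA, hares, zero_mul]
  have hhred : R.red h ^ m = 1 := by
    rw [← R.red_pow hhO, ← hf1]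
    have : h ^ m = f - (a * a) • w := by rw [hfh]; ring
    rw [this, R.red_sub hfO (R.smul_mem (mul_mem haA haA) hwO), R.red_smul (mul_mem haA haA) hwO,
      haa, zero_smul, sub_zero]
  have hhred0 : R.red h ≠ 0 := by
    intro h0
    rw [h0, zero_pow hm] at hhred
    exact zero_ne_one hhred
  obtain ⟨d, hd⟩ : ∃ d : k, R.red h = algebraMap k F' d := by
    apply exists_eq_algebraMap_of_ord_nonneg
    intro v
    have h1 : (m : ℤ) * v.ord (R.red h) = 0 := by
      rw [← FF.ord_pow, hhred, v.ord_one]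
    have h2 := (mul_eq_zero.mp h1).resolve_left (by exact_mod_cast hm)
    omega
  have hd0 : d ≠ 0 := by rintro rfl; rw [map_zero] at hd; exact hhred0 hd
  obtain ⟨c₂, hc₂A, hc₂⟩ := R.exists_res d⁻¹
  have hc₂0 : c₂ ≠ 0 := by rintro rfl; rw [R.res_zero] at hc₂; exact inv_ne_zero hd0 hc₂.symm
  have hh'O : c₂ • h ∈ R.O := R.smul_mem hc₂A hhO
  have hh'1 : R.red (c₂ • h) = 1 := by
    rw [R.red_smul hc₂A hhO, hd, hc₂, Algebra.smul_def, ← map_mul, inv_mul_cancel₀ hd0, map_one]
  have hh'K : ∀ c : K, c₂ • h ≠ algebraMap K F c := by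
    intro c hc
    have h1 : h = algebraMap K F (c₂⁻¹ * c) := by
      rw [map_mul, ← hc, ← Algebra.smul_def, smul_smul, inv_mul_cancel₀ hc₂0, one_smul]
    refine R.not_const_approx ha haA hares hgA.1 huO hu hfu (κ := (c₂⁻¹ * c) ^ m) hwO ?_
    rw [hfh, h1, map_pow]
  obtain ⟨g₂, e, z, hg₂, he, heA, heres, hzO, hz, hhz⟩ := R.exists_one_add hh'O hh'1 hh'K
  -- `κ = (g₂ c₂)^m`
  have hg₂c₂ : g₂ * c₂ ≠ 0 := mul_ne_zero hg₂ hc₂0
  have hunit : g₂ * c₂ ∈ R.A ∧ (g₂ * c₂)⁻¹ ∈ R.A := by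
    have h1 : g₂ • c₂ • h ∈ R.O := by
      rw [hhz]; exact add_mem (one_mem _) (R.smul_mem heA hzO)
    have h2 : R.red (g₂ • c₂ • h) = 1 := by
      rw [hhz, R.red_add (one_mem _) (R.smul_mem heA hzO), R.red_smul heA hzO, heres, zero_smul,
        add_zero, R.red_one]
    have hhinv := R.inv_mem_of_red_ne hhO hhred0
    have hh0 : h ≠ 0 := by rintro rfl; simp at hhred0
    have h3 : algebraMap K F (g₂ * c₂) ∈ R.O := by
      have : algebraMap K F (g₂ * c₂) = (g₂ • c₂ • h) * h⁻¹ := by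
        rw [smul_smul, Algebra.smul_def, mul_assoc, mul_inv_cancel₀ hh0, mul_one]
      rw [this]
      exact mul_mem h1 hhinv
    have h4 := R.inv_mem_of_red_ne h1 (by rw [h2]; exact one_ne_zero)
    have h5 : algebraMap K F (g₂ * c₂)⁻¹ ∈ R.O := by
      have : algebraMap K F (g₂ * c₂)⁻¹ = (g₂ • c₂ • h)⁻¹ * h := by
        rw [smul_smul, Algebra.smul_def, mul_inv (algebraMap K F (g₂ * c₂)) h, mul_assoc,
          inv_mul_cancel₀ hh0, mul_one, map_inv₀]
      rw [this]
      exact mul_mem h4 hhO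
    exact ⟨(R.mem_iff _).mp h3, (R.mem_iff _).mp h5⟩
  refine ⟨(g₂ * c₂) ^ m, a * a, e, z, (g₂ * c₂) ^ m • w, pow_ne_zero _ hg₂c₂, mul_ne_zero ha ha,
    mul_mem haA haA, he, heA, heres, hzO, R.smul_mem (pow_mem hunit.1 _) hwO, haa, hz, ?_, ?_⟩
  · rw [← hhz, hfh, smul_add, smul_comm ((g₂ * c₂) ^ m) (a * a), smul_smul g₂ c₂, _root_.smul_pow]
  · intro κ' w' hw' heq
    refine R.not_const_approx ha haA hares hgA.1 huO hu hfu
      (κ := ((g₂ * c₂) ^ m)⁻¹ * κ') (w := ((g₂ * c₂) ^ m)⁻¹ • w')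
      (R.smul_mem (by rw [← inv_pow]; exact pow_mem hunit.2 _) hw') ?_
    have h1 : f = ((g₂ * c₂) ^ m)⁻¹ • ((g₂ * c₂) ^ m • f) := by
      rw [smul_smul, inv_mul_cancel₀ (pow_ne_zero _ hg₂c₂), one_smul]
    rw [h1, heq, smul_add, smul_comm (a * a), map_mul, ← Algebra.smul_def]

variable [IsFF K F] [IsFF k F']

/-- The basic congruence, general form. -/
theorem claimG {m : ℕ} (hm : m ≠ 0) {D₁ D₂ : Divisor K F} {f z w s t : F}
    {b c e β b' e' : K}
    (hf0 : f ≠ 0) (hdiv : ∀ v : Place K F, v.ord f = m * (D₁ v - D₂ v))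
    (hzO : z ∈ R.O) (hwO : w ∈ R.O) (hcA : c ∈ R.A) (hc : c ≠ 0) (hcres : R.res c = 0)
    (hf : f = (1 + e • z) ^ m + c • w)
    (hfar : ∀ (κ' : K) (w' : F), w' ∈ R.O → f ≠ algebraMap K F κ' + c • w')
    (hs : s ∈ riemannRochSpace D₁) (hsO : s ∈ R.O) (htO : t ∈ R.O)
    (hst : s + b • t ∈ riemannRochSpace D₂)
    (hb : b = β * b') (he : e = β * e') (hβ : β ≠ 0) (hβA : β ∈ R.A) (hβres : R.res β = 0)
    (hb' : b' ∈ R.A) (he' : e' ∈ R.A) (v : Place k F')
    (hsv : v.adicValuation (R.red s) = exp (R.r D₁ v)) :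
    v.adicValuation (R.res b' • R.red t - R.res e' • (R.red z * R.red s)) ≤ exp (R.r D₁ v) := by
  classical
  have hbA : b ∈ R.A := by rw [hb]; exact mul_mem hβA hb'
  have heA : e ∈ R.A := by rw [he]; exact mul_mem hβA he'
  have heres : R.res e = 0 := by rw [he, R.res_mul hβA he', hβres, zero_mul]
  set y : F := 1 + e • z with hy
  have hyO : y ∈ R.O := add_mem (one_mem _) (R.smul_mem heA hzO)
  have hyred : R.red y = 1 := by
    rw [hy, R.red_add (one_mem _) (R.smul_mem heA hzO), R.red_smul heA hzO, heres, zero_smul,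
      add_zero, R.red_one]
  have hy0 : y ≠ 0 := by intro h; rw [h] at hyred; simp at hyred
  have hyinv : y⁻¹ ∈ R.O := R.inv_mem_of_red_ne hyO (by rw [hyred]; exact one_ne_zero)
  have hyinvred : R.red y⁻¹ = 1 := by
    rw [R.red_inv hyO (by rw [hyred]; exact one_ne_zero), hyred, inv_one]
  -- the maximal coefficient
  have hm1 : (Finset.Icc 1 m).Nonempty := ⟨m, Finset.mem_Icc.mpr ⟨by omega, le_rfl⟩⟩
  obtain ⟨i₀, hi₀, hmax⟩ := (Finset.Icc 1 m).exists_max_image
    (fun i => R.A.valuation ((m.choose i : K) * β ^ i)) hm1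
  set μ : K := (m.choose i₀ : K) * β ^ i₀ with hμ
  have hμ0 : μ ≠ 0 := by
    intro h0
    have h1 := hmax m (Finset.mem_Icc.mpr ⟨by omega, le_rfl⟩)
    rw [h0, map_zero, le_zero_iff, map_eq_zero, Nat.choose_self, Nat.cast_one, one_mul] at h1
    exact pow_ne_zero _ hβ h1
  have hμA : μ ∈ R.A := mul_mem (natCast_mem _ _) (pow_mem hβA _)
  set ε : ℕ → K := fun i => μ⁻¹ * ((m.choose i : K) * β ^ i) with hε
  have hεA : ∀ i ∈ Finset.Icc 1 m, ε i ∈ R.A := by
    intro i hi
    rw [← ValuationSubring.valuation_le_one_iff, hε, map_mul, map_inv₀]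
    have hv : R.A.valuation μ ≠ 0 := (Valuation.ne_zero_iff _).mpr hμ0
    calc (R.A.valuation μ)⁻¹ * R.A.valuation ((m.choose i : K) * β ^ i)
        ≤ (R.A.valuation μ)⁻¹ * R.A.valuation μ := mul_le_mul_right (hmax i hi) _
      _ = 1 := inv_mul_cancel₀ hv
  have hε₀ : ε i₀ = 1 := inv_mul_cancel₀ hμ0
  -- `c / μ` is in the maximal ideal
  have hcμ : μ⁻¹ * c ∈ R.A ∧ R.res (μ⁻¹ * c) = 0 := by
    by_contra hcon
    -- then `μ / c ∈ A`
    have h1 : c⁻¹ * μ ∈ R.A := by
      rcases R.A.mem_or_inv_mem (μ⁻¹ * c) with h2 | h2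
      · have h3 : R.res (μ⁻¹ * c) ≠ 0 := fun h3 => hcon ⟨h2, h3⟩
        have h4 := R.inv_mem_of_red_ne (R.algebraMap_mem h2) (by
          rw [R.red_algebraMap h2]; exact (map_ne_zero _).mpr h3)
        rw [← map_inv₀, R.mem_iff, mul_inv, inv_inv, mul_comm] at h4
        exact h4
      · rwa [mul_inv, inv_inv, mul_comm] at h2
    have h5 : ∃ w₁ ∈ R.O, y ^ m = 1 + c • w₁ := by
      have h6 : y ^ m = 1 + ∑ i ∈ Finset.Icc 1 m, ((m.choose i : K) * e ^ i) • z ^ i := by
        rw [hy, add_comm (1 : F), add_pow, Finset.sum_range_succ']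
        simp only [pow_zero, one_mul, one_pow, mul_one, Nat.choose_zero_right, Nat.cast_one]
        rw [add_comm]
        congr 1
        rw [Finset.sum_bij (fun i _ => i + 1)]
        · intro i hi
          rw [Finset.mem_range] at hi
          rw [Finset.mem_Icc]; omega
        · intro i _ j _ h; omega
        · intro i hi
          rw [Finset.mem_Icc] at hi
          exact ⟨i - 1, by rw [Finset.mem_range]; omega, by omega⟩
        · intro i _
          rw [_root_.smul_pow, Algebra.smul_def, Algebra.smul_def, map_mul]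
          simp only [map_natCast]
          ring
      have h7 : ∀ i ∈ Finset.Icc 1 m, c⁻¹ * ((m.choose i : K) * e ^ i) ∈ R.A := by
        intro i hi
        have : c⁻¹ * ((m.choose i : K) * e ^ i) = (c⁻¹ * μ) * ε i * e' ^ i := by
          rw [he, hε]
          field_simp
          rw [_root_.mul_pow, mul_assoc]
        rw [this]
        exact mul_mem (mul_mem h1 (hεA i hi)) (pow_mem he' _)
      refine ⟨∑ i ∈ Finset.Icc 1 m, (c⁻¹ * ((m.choose i : K) * e ^ i)) • z ^ i,
        R.sum_mem fun i hi => R.smul_mem (h7 i hi) (pow_mem hzO _), ?_⟩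
      rw [h6, Finset.smul_sum]
      congr 1
      refine Finset.sum_congr rfl fun i _ => ?_
      rw [smul_smul, mul_inv_cancel_left₀ hc]
    obtain ⟨w₁, hw₁, h6⟩ := h5
    refine hfar 1 (w₁ + w) (add_mem hw₁ hwO) ?_
    rw [hf, h6, map_one, smul_add]
    ring
  -- `τ`
  set τ : F := y⁻¹ * (b' • t - e' • (z * s)) with hτ
  have hbt : b' • t ∈ R.O := R.smul_mem hb' htO
  have hezs : e' • (z * s) ∈ R.O := R.smul_mem he' (mul_mem hzO hsO)
  have hτO : τ ∈ R.O := mul_mem hyinv (sub_mem hbt hezs)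
  have hτred : R.red τ = R.res b' • R.red t - R.res e' • (R.red z * R.red s) := by
    rw [hτ, R.red_mul hyinv (sub_mem hbt hezs), hyinvred, one_mul, R.red_sub hbt hezs,
      R.red_smul hb' htO, R.red_smul he' (mul_mem hzO hsO), R.red_mul hzO hsO]
  have hs'y : (s + b • t) * y⁻¹ = s + β • τ := by
    have h1 : y * (s + β • τ) = s + b • t := by
      rw [hτ, mul_add, mul_smul_comm, mul_inv_cancel_left₀ hy0, hy, hb, he]
      simp only [Algebra.smul_def, map_mul]
      ring
    rw [← h1, mul_comm y, mul_assoc, mul_inv_cancel₀ hy0, mul_one]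
  set S : F := ∑ i ∈ Finset.Icc 1 m, ε i • (s ^ (m - i) * τ ^ i) with hS
  have hSO : ∀ i ∈ Finset.Icc 1 m, ε i • (s ^ (m - i) * τ ^ i) ∈ R.O := fun i hi =>
    R.smul_mem (hεA i hi) (mul_mem (pow_mem hsO _) (pow_mem hτO _))
  have hexp : ((s + b • t) * y⁻¹) ^ m = s ^ m + μ • S := by
    rw [hs'y, add_comm s, add_pow, Finset.sum_range_succ']
    simp only [pow_zero, one_mul, Nat.sub_zero, Nat.choose_zero_right, Nat.cast_one, mul_one]
    rw [add_comm]
    congr 1
    rw [hS, Finset.smul_sum, Finset.sum_bij (fun i _ => i + 1)]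
    · intro i hi
      rw [Finset.mem_range] at hi
      rw [Finset.mem_Icc]; omega
    · intro i _ j _ h; omega
    · intro i hi
      rw [Finset.mem_Icc] at hi
      exact ⟨i - 1, by rw [Finset.mem_range]; omega, by omega⟩
    · intro i _
      rw [smul_smul, hε, mul_inv_cancel_left₀ hμ0, _root_.smul_pow, Algebra.smul_def,
        Algebra.smul_def, map_mul]
      simp only [map_natCast]
      ring
  -- `q₁ = f / y^m`
  set w₂ : F := w * (y⁻¹) ^ m with hw₂
  have hw₂O : w₂ ∈ R.O := mul_mem hwO (pow_mem hyinv _)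
  set q₁ : F := 1 + c • w₂ with hq₁
  have hfq : f = y ^ m * q₁ := by
    rw [hf, hq₁, hw₂, mul_add, mul_one, mul_smul_comm]
    congr 2
    rw [mul_left_comm, ← mul_pow, mul_inv_cancel₀ hy0, one_pow, mul_one]
  have hq₁O : q₁ ∈ R.O := add_mem (one_mem _) (R.smul_mem hcA hw₂O)
  have hq₁red : R.red q₁ = 1 := by
    rw [hq₁, R.red_add (one_mem _) (R.smul_mem hcA hw₂O), R.red_smul hcA hw₂O, hcres, zero_smul,
      add_zero, R.red_one]
  have hq₁0 : q₁ ≠ 0 := by intro h; rw [h] at hq₁red; simp at hq₁red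
  have hq₁inv : q₁⁻¹ ∈ R.O := R.inv_mem_of_red_ne hq₁O (by rw [hq₁red]; exact one_ne_zero)
  set Y : F := (S - (μ⁻¹ * c) • (w₂ * s ^ m)) * q₁⁻¹ with hY
  have hSO' : S ∈ R.O := R.sum_mem hSO
  have hwsO : (μ⁻¹ * c) • (w₂ * s ^ m) ∈ R.O :=
    R.smul_mem hcμ.1 (mul_mem hw₂O (pow_mem hsO _))
  have hYO : Y ∈ R.O := mul_mem (sub_mem hSO' hwsO) hq₁inv
  have hYred : R.red Y = ∑ i ∈ Finset.Icc 1 m,
      R.res (ε i) • (R.red s ^ (m - i) * R.red τ ^ i) := by
    rw [hY, R.red_mul (sub_mem hSO' hwsO) hq₁inv,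
      R.red_inv hq₁O (by rw [hq₁red]; exact one_ne_zero), hq₁red, inv_one, mul_one,
      R.red_sub hSO' hwsO, R.red_smul hcμ.1 (mul_mem hw₂O (pow_mem hsO _)), hcμ.2, zero_smul,
      sub_zero, hS, R.red_sum hSO]
    refine Finset.sum_congr rfl fun i hi => ?_
    rw [R.red_smul (hεA i hi) (mul_mem (pow_mem hsO _) (pow_mem hτO _)),
      R.red_mul (pow_mem hsO _) (pow_mem hτO _), R.red_pow hsO, R.red_pow hτO]
  have hid : μ • Y = (s + b • t) ^ m * f⁻¹ - s ^ m := by
    have h1 : (s + b • t) ^ m * f⁻¹ = (s ^ m + μ • S) * q₁⁻¹ := by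
      rw [← hexp, hfq, mul_pow, mul_inv (y ^ m), inv_pow, mul_assoc]
    rw [h1, hY, ← smul_mul_assoc, smul_sub, smul_smul, mul_inv_cancel_left₀ hμ0]
    have h2 : (s ^ m + μ • S) * q₁⁻¹ - s ^ m = (s ^ m + μ • S - s ^ m * q₁) * q₁⁻¹ := by
      rw [sub_mul, mul_assoc (s ^ m) q₁, mul_inv_cancel₀ hq₁0, mul_one]
    rw [h2]
    congr 1
    rw [hq₁]
    simp only [Algebra.smul_def]
    ring
  have hYL : Y ∈ riemannRochSpace (m • D₁) := by
    have h1 : μ • Y ∈ riemannRochSpace (m • D₁) := by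
      rw [hid]
      refine Submodule.sub_mem _ ?_ (pow_mem_L hs m)
      have h2 : f⁻¹ ∈ riemannRochSpace (m • D₁ - m • D₂) := by
        rw [mem_riemannRochSpace_iff]
        intro v
        right
        rw [v.ord_inv, hdiv v, Finsupp.sub_apply, Finsupp.smul_apply, Finsupp.smul_apply,
          nsmul_eq_mul, nsmul_eq_mul]
        apply le_of_eq
        ring
      have h3 := mul_mem_L (pow_mem_L hst m) h2
      rwa [add_sub_cancel] at h3
    have h2 := Submodule.smul_mem _ μ⁻¹ h1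
    rwa [smul_smul, inv_mul_cancel₀ hμ0, one_smul] at h2
  have h3 := R.red_mem_L hYL hYO v
  rw [hYred, map_nsmul, Finsupp.smul_apply, nsmul_eq_mul] at h3
  have hs0 : R.red s ≠ 0 := by
    intro h0
    rw [h0, map_zero] at hsv
    exact exp_ne_zero hsv.symm
  rw [← hτred, ← hsv]
  refine val_le_of_poly v hi₀ (η := fun i => R.res (ε i)) ?_ hs0 ?_
  · simp only [hε₀, R.res_one]; exact one_ne_zero
  · refine h3.trans (le_of_eq ?_)
    rw [hsv, ← exp_nsmul, nsmul_eq_mul]

variable [IsAlgClosed K] [IsAlgClosed k]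

/-- **Key lemma, completion form.** -/
theorem keyG (hg : genusFF K F ≤ genusFF k F') {m : ℕ} (hm : m ≠ 0)
    {E E₁ : Divisor K F} (hE : 0 ≤ E) (hE₁ : 0 ≤ E₁) {E' : Divisor k F'}
    (hrE : R.r E = E') (hrE₁ : R.r E₁ = E') (hell : ell E' = 1) {f : F} (hfO : f ∈ R.O)
    (hf1 : R.red f = 1) (happ : R.PowerApprox m f)
    (hdiv : ∀ v : Place K F, v.ord f = m * (E v - E₁ v)) : E = E₁ := by
  by_contra hne
  have hg' := R.genus_le
  have hf0 : f ≠ 0 := by rintro rfl; simp at hf1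
  have hE' : 0 ≤ E' := by rw [← hrE]; exact R.r_nonneg _ hE
  have hdegE : Divisor.degree E = Divisor.degree E' := by rw [← hrE, R.degree_r]
  have hdegE₁ : Divisor.degree E₁ = Divisor.degree E' := by rw [← hrE₁, R.degree_r]
  -- `f` is not constant
  have hfK : ∀ c : K, f ≠ algebraMap K F c := by
    rintro c rfl
    apply hne
    ext v
    have h1 := hdiv v
    rw [FF.ord_algebraMap] at h1
    have h2 : (m : ℤ) ≠ 0 := by exact_mod_cast hm
    have h3 := (mul_eq_zero.mp h1.symm).resolve_left h2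
    omega
  obtain ⟨κ, c, e, z, w, hκ, hc, hcA, he0, heA, heres, hzO, hwO, hcres, hz, hfz, hfar⟩ :=
    R.exists_good_approx hm hfO hf1 hfK happ
  set f' : F := κ • f with hf'
  have hf'0 : f' ≠ 0 := smul_ne_zero hκ hf0
  have hf'ord : ∀ v : Place K F, v.ord f' = v.ord f := by
    intro v
    have : algebraMap K F κ ≠ 0 := by simpa using hκ
    rw [hf', Algebra.smul_def, v.ord_mul this hf0, FF.ord_algebraMap, zero_add]
  -- the big divisor
  obtain ⟨B, hB⟩ := exists_degree_ge (K := K) (F := F)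
    (2 * (genusFF K F : ℤ) + Divisor.degree E' + 1)
  have hf'div : ∀ v : Place K F, v.ord f' = m * ((B - E₁) v - (B - E) v) := by
    intro v
    rw [hf'ord, hdiv v, Finsupp.sub_apply, Finsupp.sub_apply]
    ring
  have hMV : riemannRochSpace (B - E₁) ≤ riemannRochSpace B :=
    riemannRochSpace_mono' (sub_le_self _ hE₁)
  have hM'V : riemannRochSpace (B - E) ≤ riemannRochSpace B :=
    riemannRochSpace_mono' (sub_le_self _ hE)
  have hdeg1 : Divisor.degree (B - E₁) = Divisor.degree B - Divisor.degree E' := by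
    rw [map_sub, hdegE₁]
  have hdeg2 : Divisor.degree (B - E) = Divisor.degree B - Divisor.degree E' := by
    rw [map_sub, hdegE]
  have hredM : R.redSub (riemannRochSpace (B - E₁)) = riemannRochSpace (R.r B - E') := by
    rw [R.redSub_L_eq hg (by omega), map_sub, hrE₁]
  have hredM' : R.redSub (riemannRochSpace (B - E)) = riemannRochSpace (R.r B - E') := by
    rw [R.redSub_L_eq hg (by omega), map_sub, hrE]
  have hnle : ¬ riemannRochSpace (B - E₁) ≤ riemannRochSpace (B - E) := by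
    intro hle
    apply hne
    refine eq_of_le_of_degree_le ?_ (by rw [hdegE, hdegE₁])
    intro v
    obtain ⟨s, hs, hs0, hsv⟩ := exists_exact (D := B - E₁) (by omega) v
    have h1 := ((mem_riemannRochSpace_iff.mp (hle hs)) v).resolve_left hs0
    rw [hsv, Finsupp.sub_apply, Finsupp.sub_apply] at h1
    omega
  obtain ⟨b, hb0, hbA, hbres, hall, s₀, hs₀, hs₀O, t₀, ht₀, ht₀O, hst₀, ht₀'⟩ :=
    R.two_lattices hMV hM'V (hredM.trans hredM'.symm) hnle
  set D' : Divisor k F' := R.r B - E' with hD'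
  have hrD : R.r (B - E₁) = D' := by rw [map_sub, hrE₁]
  -- existence of exact elements on the reduction
  have hexact : ∀ w : Place k F', ∃ s ∈ riemannRochSpace (B - E₁), s ∈ R.O ∧
      w.adicValuation (R.red s) = exp (D' w) := by
    intro w
    obtain ⟨s', hs', hs'0, hsw⟩ := exists_exact (D := D') (by
      rw [hD', map_sub, R.degree_r]; omega) w
    rw [← hredM] at hs'
    obtain ⟨s, hs, hsO, rfl⟩ := hs'
    refine ⟨s, hs, hsO, ?_⟩
    rw [w.adicValuation_eq_exp_neg_ord hs'0, hsw, neg_neg]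
  rcases lt_or_ge (R.A.valuation e) (R.A.valuation b) with hab | hab
  · -- Case I: `|e| < |b|`
    have hvb : R.A.valuation b ≠ 0 := (Valuation.ne_zero_iff _).mpr hb0
    have hval : R.A.valuation (b⁻¹ * e) < 1 := by
      rw [map_mul, map_inv₀]
      calc (R.A.valuation b)⁻¹ * R.A.valuation e
          < (R.A.valuation b)⁻¹ * R.A.valuation b := by
            exact (mul_lt_mul_iff_right₀ (zero_lt_iff.mpr (inv_ne_zero hvb))).mpr hab
        _ = 1 := inv_mul_cancel₀ hvb
    have he'A : b⁻¹ * e ∈ R.A := (R.A.valuation_le_one_iff _).mp hval.le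
    have he'0 : R.res (b⁻¹ * e) = 0 := (R.res_eq_zero_iff he'A).mpr hval
    have claim : ∀ (w : Place k F') (s t : F), s ∈ riemannRochSpace (B - E₁) → s ∈ R.O →
        t ∈ R.O → s + b • t ∈ riemannRochSpace (B - E) →
        w.adicValuation (R.red s) = exp (D' w) → w.adicValuation (R.red t) ≤ exp (D' w) := by
      intro w' s t hs hsO htO hst hsw
      have h1 := R.claimG hm hf'0 hf'div hzO hwO hcA hc hcres hfz hfar hs hsO htO hst
        (β := b) (b' := 1) (e' := b⁻¹ * e) (by rw [mul_one]) (by rw [mul_inv_cancel_left₀ hb0])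
        hb0 hbA hbres (one_mem _) he'A w' (by rw [hrD]; exact hsw)
      rwa [he'0, zero_smul, sub_zero, R.res_one, one_smul, hrD] at h1
    apply ht₀'
    rw [hredM]
    intro w
    by_contra hw
    rw [not_le] at hw
    obtain ⟨s₁, hs₁, hs₁O, hs₁w⟩ := hexact w
    obtain ⟨t₁, ht₁, ht₁O, hst₁⟩ := hall s₁ hs₁ hs₁O
    have h1 := claim w s₁ t₁ hs₁ hs₁O ht₁O hst₁ hs₁w
    have h2 : w.adicValuation (R.red s₀) ≤ exp (D' w) := by
      have : R.red s₀ ∈ riemannRochSpace D' := by
        rw [← hredM]; exact R.red_mem_redSub hs₀ hs₀O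
      exact this w
    rcases h2.lt_or_eq with h3 | h3
    · have h4 : w.adicValuation (R.red (s₀ + s₁)) = exp (D' w) := by
        rw [R.red_add hs₀O hs₁O, Valuation.map_add_eq_of_lt_right _ (by rw [hs₁w]; exact h3), hs₁w]
      have h5 := claim w (s₀ + s₁) (t₀ + t₁) (Submodule.add_mem _ hs₀ hs₁) (add_mem hs₀O hs₁O)
        (add_mem ht₀O ht₁O) (by
          have := Submodule.add_mem _ hst₀ hst₁
          rw [smul_add]
          convert this using 1
          ring) h4
      rw [R.red_add ht₀O ht₁O, Valuation.map_add_eq_of_lt_left _ (lt_of_le_of_lt h1 hw)] at h5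
      exact absurd hw (not_lt.mpr h5)
    · exact absurd hw (not_lt.mpr (claim w s₀ t₀ hs₀ hs₀O ht₀O hst₀ h3))
  · -- Case II: `|b| ≤ |e|`
    have hve : R.A.valuation e ≠ 0 := (Valuation.ne_zero_iff _).mpr he0
    have hb'A : e⁻¹ * b ∈ R.A := by
      rw [← ValuationSubring.valuation_le_one_iff, map_mul, map_inv₀]
      calc (R.A.valuation e)⁻¹ * R.A.valuation b
          ≤ (R.A.valuation e)⁻¹ * R.A.valuation e := mul_le_mul_right hab _
        _ = 1 := inv_mul_cancel₀ hve
    have hzL : R.red z ∈ riemannRochSpace E' := by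
      intro v
      obtain ⟨s, hs, hsO, hsw⟩ := hexact v
      obtain ⟨t, ht, htO, hst⟩ := hall s hs hsO
      have h1 := R.claimG hm hf'0 hf'div hzO hwO hcA hc hcres hfz hfar hs hsO htO hst
        (β := e) (b' := e⁻¹ * b) (e' := 1) (by rw [mul_inv_cancel_left₀ he0]) (by rw [mul_one])
        he0 heA heres hb'A (one_mem _) v (by rw [hrD]; exact hsw)
      rw [R.res_one, one_smul, hrD] at h1
      have h5 : v.adicValuation (R.res (e⁻¹ * b) • R.red t) ≤ exp (R.r B v) := by
        rw [Algebra.smul_def, map_mul]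
        calc _ ≤ 1 * exp (R.r B v) :=
              mul_le_mul' (v.adicValuation_algebraMap_le_one _) (R.red_mem_L ht htO v)
          _ = _ := one_mul _
      have hBD : R.r B v = D' v + E' v := by
        rw [hD', Finsupp.sub_apply]; ring
      have h6 : v.adicValuation (R.red z * R.red s) ≤ exp (R.r B v) := by
        have h7 : R.red z * R.red s = R.res (e⁻¹ * b) • R.red t -
            (R.res (e⁻¹ * b) • R.red t - R.red z * R.red s) := by ring
        rw [h7]
        refine (Valuation.map_sub _ _ _).trans (max_le h5 (h1.trans (exp_le_exp.mpr ?_)))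
        have : 0 ≤ E' v := hE' v
        omega
      rw [map_mul, hsw] at h6
      by_cases hz0 : R.red z = 0
      · rw [hz0, map_zero]; exact zero_le
      rw [v.adicValuation_eq_exp_neg_ord hz0, ← exp_add, exp_le_exp] at h6
      rw [v.adicValuation_eq_exp_neg_ord hz0, exp_le_exp]
      omega
    obtain ⟨x, hx⟩ := exists_eq_algebraMap hE' hell hzL
    exact hz x hx

/-- **Injectivity of reduction in completion form**: if `m • D = div f` (`m ≠ 0` arbitrary) and
`f` is an `m`-th power in the completion of `F` at the Gauss valuation, then `D` is principal. -/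
theorem isPrincipal_of_powerApprox (hg : genusFF K F ≤ genusFF k F')
    (hA : ∃ c : K, c ≠ 0 ∧ c ∈ R.A ∧ R.res c = 0) {m : ℕ} (hm : m ≠ 0)
    {D : Divisor K F} (hD : Divisor.degree D = 0) {f : F} (hfO : f ∈ R.O) (hf : R.red f ≠ 0)
    (hdiv : ∀ v : Place K F, v.ord f = m * D v) (happ : R.PowerApprox m f) :
    Divisor.IsPrincipal D := by
  have hg' := R.genus_le
  have hf0 : f ≠ 0 := by rintro rfl; simp at hf
  obtain ⟨c₀, hc₀, hc₀A, hc₀res⟩ := hA
  obtain ⟨h, hhO, w₀, hw₀, hfh⟩ := happ c₀ hc₀ hc₀A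
  have hfred : R.red f = R.red h ^ m := by
    rw [hfh, R.red_add (pow_mem hhO _) (R.smul_mem hc₀A hw₀), R.red_smul hc₀A hw₀, hc₀res,
      zero_smul, add_zero, R.red_pow hhO]
  have hh'0 : R.red h ≠ 0 := by
    intro h0
    rw [hfred, h0, zero_pow hm] at hf
    exact hf rfl
  have hh0 : h ≠ 0 := by rintro rfl; simp at hh'0
  have hhinv : h⁻¹ ∈ R.O := R.inv_mem_of_red_ne hhO hh'0
  -- `D₀ = D - div h` has trivial reduction
  set D₀ : Divisor K F := D - div h with hD₀
  have hmz : (m : ℤ) ≠ 0 := by exact_mod_cast hm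
  have hrD₀ : R.r D₀ = 0 := by
    ext w
    have h1 : (m : ℤ) * R.r D w = m * w.ord (R.red h) := by
      have h2 := R.r_div f (m • D) hfO hf (fun v => by
        rw [Finsupp.smul_apply, nsmul_eq_mul, hdiv v]) w
      rw [map_nsmul, Finsupp.smul_apply, nsmul_eq_mul, hfred, FF.ord_pow] at h2
      exact h2
    rw [hD₀, map_sub, Finsupp.sub_apply, mul_left_cancel₀ hmz h1,
      R.r_div h (div h) hhO hh'0 (fun v => div_apply h v) w, sub_self]
    simp
  obtain ⟨E', hE', hdegE', hell⟩ := exists_nonspecial (K := k) (F := F')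
  obtain ⟨E₁, hE₁, hrE₁⟩ := R.exists_lift_effective hg E' hE'
  have hdegE₁ : Divisor.degree E₁ = genusFF k F' := by rw [← R.degree_r, hrE₁, hdegE']
  have hdegD₀ : Divisor.degree D₀ = 0 := by rw [hD₀, map_sub, hD, degree_div, sub_zero]
  obtain ⟨y, hy, hy0⟩ := exists_ne_zero_of_degree (D := D₀ + E₁) (by
    rw [map_add, hdegD₀, hdegE₁]; omega)
  obtain ⟨c, hc, hcyO, hcy⟩ := R.exists_normalise hy0
  have hcyL : c • y ∈ riemannRochSpace (D₀ + E₁) := Submodule.smul_mem _ _ hy
  obtain ⟨d, hd⟩ : ∃ d : k, R.red (c • y) = algebraMap k F' d := by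
    refine exists_eq_algebraMap hE' hell ?_
    have := R.red_mem_L hcyL hcyO
    rwa [map_add, hrD₀, zero_add, hrE₁] at this
  have hd0 : d ≠ 0 := by rintro rfl; rw [map_zero] at hd; exact hcy hd
  obtain ⟨c₂, hc₂A, hc₂⟩ := R.exists_res d⁻¹
  have hc₂0 : c₂ ≠ 0 := by rintro rfl; rw [R.res_zero] at hc₂; exact inv_ne_zero hd0 hc₂.symm
  set y' : F := c₂ • c • y with hy'
  have hy'O : y' ∈ R.O := R.smul_mem hc₂A hcyO
  have hy'1 : R.red y' = 1 := by
    rw [hy', R.red_smul hc₂A hcyO, hd, hc₂, Algebra.smul_def, ← map_mul, inv_mul_cancel₀ hd0,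
      map_one]
  have hy'0 : y' ≠ 0 := by intro h0; rw [h0] at hy'1; simp at hy'1
  have hy'L : y' ∈ riemannRochSpace (D₀ + E₁) := Submodule.smul_mem _ _ hcyL
  set E : Divisor K F := D₀ + E₁ + div y' with hEdef
  have hE : 0 ≤ E := by
    have := (mem_riemannRochSpace_iff_div hy'0).mp hy'L
    rwa [add_comm] at this
  have hrE : R.r E = E' := by
    have h2 : R.r (div y') = 0 := by
      ext w
      rw [R.r_div y' (div y') hy'O (by rw [hy'1]; exact one_ne_zero) (fun v => div_apply _ v) w,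
        hy'1, w.ord_one]
      simp
    rw [hEdef, map_add, map_add, hrD₀, zero_add, hrE₁, h2, add_zero]
  -- the function
  have hmulO : h⁻¹ * y' ∈ R.O := mul_mem hhinv hy'O
  have hf'O : f * (h⁻¹ * y') ^ m ∈ R.O := mul_mem hfO (pow_mem hmulO _)
  have hf'1 : R.red (f * (h⁻¹ * y') ^ m) = 1 := by
    rw [R.red_mul hfO (pow_mem hmulO _), R.red_pow hmulO, R.red_mul hhinv hy'O,
      R.red_inv hhO hh'0, hy'1, mul_one, hfred, ← mul_pow, mul_inv_cancel₀ hh'0, one_pow]
  have hEE₁ : E = E₁ := by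
    refine R.keyG hg hm hE hE₁ hrE hrE₁ hell hf'O hf'1 (happ.mul_pow hmulO) ?_
    intro v
    rw [v.ord_mul hf0 (pow_ne_zero _ (mul_ne_zero (inv_ne_zero hh0) hy'0)), FF.ord_pow,
      v.ord_mul (inv_ne_zero hh0) hy'0, v.ord_inv, hdiv v, hEdef, hD₀]
    simp only [Finsupp.add_apply, Finsupp.sub_apply, div_apply]
    ring
  refine ⟨h * y'⁻¹, mul_ne_zero hh0 (inv_ne_zero hy'0), ?_⟩
  intro v
  have h1 : E v = E₁ v := by rw [hEE₁]
  rw [hEdef, hD₀] at h1
  simp only [Finsupp.add_apply, Finsupp.sub_apply, div_apply] at h1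
  rw [v.ord_mul hh0 (inv_ne_zero hy'0), v.ord_inv]
  omega

end RedData

end Fermat.Agent.RedInj
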