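import Fermat.Agent.RedInj.General

/-!
# Newton iteration: elements close to a `p`-th power are `p`-th powers in the completion
-/

set_option autoImplicit false

open AlgebraicCurve WithZero Module Submodule
open scoped IntermediateField

namespace Fermat.Agent.RedInj

open Fermat.Agent.RR Fermat.Agent.FF

namespace RedData

variable {K F k F' : Type*} [Field K] [Field F] [Field k] [Field F']
    [Algebra K F] [Algebra k F'] (R : RedData K F k F')

/-- the valuation ring `A` has rank one -/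
def Arch : Prop := ∀ a ∈ R.A, R.res a = 0 → ∀ b : K, b ≠ 0 → ∃ n : ℕ, b⁻¹ * a ^ n ∈ R.A

variable {R}

theorem exists_pow_expand {p : ℕ} (hp : p.Prime) {a : K} (haA : a ∈ R.A) {w : F} (hw : w ∈ R.O)
    {θ : K} (hθA : θ ∈ R.A) (hθ1 : ∃ x ∈ R.A, a = θ * x)
    (hθ2 : ∃ x ∈ R.A, a ^ (p - 1) = (p : K) * θ * x) :
    ∃ w' ∈ R.O, (1 + a • w) ^ p = 1 + ((p : K) * a) • w + ((p : K) * a * θ) • w' := by
  obtain ⟨x, hx, hx'⟩ := hθ1
  obtain ⟨x₂, hx₂, hx₂'⟩ := hθ2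
  have hchoose : ∀ i, ∃ q : ℕ, 1 ≤ i → i < p → p.choose i = p * q := by
    intro i
    by_cases h : 1 ≤ i ∧ i < p
    · obtain ⟨q, hq⟩ := hp.dvd_choose_self (by omega) h.2
      exact ⟨q, fun _ _ => hq⟩
    · exact ⟨0, fun h1 h2 => absurd ⟨h1, h2⟩ h⟩
  choose q hq using hchoose
  have hp1 := hp.one_lt
  obtain ⟨r, rfl⟩ : ∃ r, p = r + 2 := ⟨p - 2, by omega⟩
  -- `(1 + a w)^p = Σ_{i ≤ p} C(p,i) a^i w^i`
  have hexp : (1 + a • w) ^ (r + 2) = 1 + (((r + 2 : ℕ) : K) * a) • w +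
      (∑ i ∈ Finset.range r, (((r + 2).choose (i + 2) : ℕ) : F) * (a • w) ^ (i + 2)) +
      (a • w) ^ (r + 2) := by
    rw [add_comm (1 : F), add_pow, Finset.sum_range_succ, Finset.sum_range_succ',
      Finset.sum_range_succ']
    simp only [one_pow, mul_one, Nat.choose_self, Nat.cast_one, pow_zero, zero_add,
      Nat.choose_zero_right, Nat.choose_one_right, pow_one]
    have h1 : (((r + 2 : ℕ) : K) * a) • w = (a • w) * ((r + 2 : ℕ) : F) := by
      rw [Algebra.smul_def, Algebra.smul_def, map_mul, map_natCast]; ring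
    rw [h1]
    have h2 : ∑ i ∈ Finset.range r, (a • w) ^ (i + 1 + 1) * (((r + 2).choose (i + 1 + 1) : ℕ) : F) =
        ∑ i ∈ Finset.range r, (((r + 2).choose (i + 2) : ℕ) : F) * (a • w) ^ (i + 2) := by
      refine Finset.sum_congr rfl fun i _ => ?_
      rw [mul_comm]
    rw [h2]
    ring
  have hawO : a • w ∈ R.O := R.smul_mem haA hw
  refine ⟨(∑ i ∈ Finset.range r, ((q (i + 2) : ℕ) : F) * (x • w * (a • w) ^ i * w)) +
      x₂ • w ^ (r + 2), ?_, ?_⟩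
  · refine add_mem (R.sum_mem fun i _ => ?_) (R.smul_mem hx₂ (pow_mem hw _))
    exact mul_mem (natCast_mem _ _) (mul_mem (mul_mem (R.smul_mem hx hw) (pow_mem hawO _)) hw)
  · rw [hexp, smul_add, add_assoc (1 + (((r + 2 : ℕ) : K) * a) • w), Finset.smul_sum]
    congr 2
    · refine Finset.sum_congr rfl fun i hi => ?_
      rw [Finset.mem_range] at hi
      rw [hq (i + 2) (by omega) (by omega)]
      have h3 : (algebraMap K F a) = algebraMap K F θ * algebraMap K F x := by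
        rw [← map_mul, ← hx']
      simp only [Algebra.smul_def, map_mul, map_natCast, Nat.cast_mul]
      rw [pow_add, pow_two]
      nth_rewrite 3 [h3]
      ring
    · rw [_root_.smul_pow, smul_smul]
      congr 1
      have h4 : r + 2 - 1 = r + 1 := by omega
      rw [h4] at hx₂'
      calc a ^ (r + 2) = a * a ^ (r + 1) := by ring
        _ = ((r + 2 : ℕ) : K) * a * θ * x₂ := by rw [hx₂']; ring

/-- one Newton step -/
theorem newton_step {p : ℕ} (hp : p.Prime) {f h w : F} {a θ : K} (haA : a ∈ R.A)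
    (ha0 : R.res a = 0) (hθA : θ ∈ R.A) (hθ1 : ∃ x ∈ R.A, a = θ * x)
    (hθ2 : ∃ x ∈ R.A, a ^ (p - 1) = (p : K) * θ * x) (hh : h ∈ R.O) (hw : w ∈ R.O)
    (hf : f = h ^ p * (1 + ((p : K) * a) • w)) :
    ∃ h₁ ∈ R.O, ∃ w₁ ∈ R.O, f = h₁ ^ p * (1 + ((p : K) * (a * θ)) • w₁) := by
  obtain ⟨w', hw', hexp⟩ := exists_pow_expand (R := R) hp haA hw hθA hθ1 hθ2
  have hyO : 1 + a • w ∈ R.O := add_mem (one_mem _) (R.smul_mem haA hw)
  have hyred : R.red (1 + a • w) = 1 := by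
    rw [R.red_add (one_mem _) (R.smul_mem haA hw), R.red_smul haA hw, ha0, zero_smul, add_zero,
      R.red_one]
  have hy0 : 1 + a • w ≠ 0 := by intro h; rw [h] at hyred; simp at hyred
  have hyinv : (1 + a • w)⁻¹ ∈ R.O := R.inv_mem_of_red_ne hyO (by rw [hyred]; exact one_ne_zero)
  refine ⟨h * (1 + a • w), mul_mem hh hyO, -(w' * ((1 + a • w)⁻¹) ^ p),
    neg_mem (mul_mem hw' (pow_mem hyinv _)), ?_⟩
  rw [hf, mul_pow, mul_assoc]
  congr 1
  have h1 : (1 + a • w) ^ p * (1 + ((p : K) * (a * θ)) • -(w' * ((1 + a • w)⁻¹) ^ p)) =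
      (1 + a • w) ^ p - ((p : K) * a * θ) • w' := by
    have h2 : (1 + a • w) ^ p * ((1 + a • w)⁻¹) ^ p = 1 := by
      rw [← mul_pow, mul_inv_cancel₀ hy0, one_pow]
    have h3 : (1 + a • w) ^ p * (w' * ((1 + a • w)⁻¹) ^ p) = w' := by
      rw [mul_left_comm ((1 + a • w) ^ p) w', h2, mul_one]
    rw [mul_add, mul_one, smul_neg, mul_neg, mul_smul_comm, h3, ← mul_assoc (p : K),
      sub_eq_add_neg]
  rw [h1, hexp]
  ring

/-- If `f = h ^ p (1 + c w)` with `|c| < |p| ^ (p / (p - 1))` then `f` is a `p`-th power in the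
completion. -/
theorem powerApprox_of_close (hArch : R.Arch) {p : ℕ} (hp : p.Prime) (hp0 : (p : K) ≠ 0)
    {f h w : F} {c : K} (hh : h ∈ R.O) (hw : w ∈ R.O) (hf : f = h ^ p * (1 + c • w))
    (hc1 : ((p : K))⁻¹ * c ∈ R.A) (hc1' : R.res ((p : K)⁻¹ * c) = 0)
    (hc2 : (p : K)⁻¹ * ((p : K)⁻¹ * c) ^ (p - 1) ∈ R.A)
    (hc2' : R.res ((p : K)⁻¹ * ((p : K)⁻¹ * c) ^ (p - 1)) = 0) :
    R.PowerApprox p f := by
  set a : K := (p : K)⁻¹ * c with ha
  have hp1 := hp.one_lt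
  have hcpa : c = (p : K) * a := by rw [ha, mul_inv_cancel_left₀ hp0]
  -- choose `θ`
  obtain ⟨θ, hθA, hθres, hθ1, hθ2⟩ : ∃ θ ∈ R.A, R.res θ = 0 ∧ (∃ x ∈ R.A, a = θ * x) ∧
      (∃ x ∈ R.A, a ^ (p - 1) = (p : K) * θ * x) := by
    set b : K := (p : K)⁻¹ * a ^ (p - 1) with hb
    have hbp : a ^ (p - 1) = (p : K) * b := by rw [hb, mul_inv_cancel_left₀ hp0]
    by_cases ha0 : a = 0
    · refine ⟨0, zero_mem _, R.res_zero, ⟨0, zero_mem _, by rw [ha0, zero_mul]⟩,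
        ⟨0, zero_mem _, by rw [ha0, zero_pow (by omega), mul_zero]⟩⟩
    have hb0 : b ≠ 0 := mul_ne_zero (inv_ne_zero hp0) (pow_ne_zero _ ha0)
    rcases R.A.mem_or_inv_mem (a⁻¹ * b) with h1 | h1
    · -- `b / a ∈ A`: take `θ = a`
      exact ⟨a, hc1, hc1', ⟨1, one_mem _, by rw [mul_one]⟩,
        ⟨a⁻¹ * b, h1, by rw [hbp, mul_assoc, mul_inv_cancel_left₀ ha0]⟩⟩
    · refine ⟨b, hc2, hc2', ⟨b⁻¹ * a, ?_, by rw [mul_inv_cancel_left₀ hb0]⟩,
        ⟨1, one_mem _, by rw [hbp, mul_one]⟩⟩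
      rwa [mul_inv, inv_inv, mul_comm] at h1
  have key : ∀ n : ℕ, ∃ h' ∈ R.O, ∃ w' ∈ R.O,
      f = h' ^ p * (1 + ((p : K) * (a * θ ^ n)) • w') := by
    intro n
    induction n with
    | zero => exact ⟨h, hh, w, hw, by rw [hf, hcpa, pow_zero, mul_one]⟩
    | succ n ih =>
      obtain ⟨h', hh', w', hw', hf'⟩ := ih
      have hanA : a * θ ^ n ∈ R.A := mul_mem hc1 (pow_mem hθA _)
      have h3 := newton_step (R := R) hp (θ := θ) hanA (by
        rw [R.res_mul hc1 (pow_mem hθA _), hc1', zero_mul]) hθA ?_ ?_ hh' hw' hf'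
      · obtain ⟨h₁, hh₁, w₁, hw₁, hf₁⟩ := h3
        exact ⟨h₁, hh₁, w₁, hw₁, by rw [hf₁, pow_succ, ← mul_assoc a]⟩
      · obtain ⟨x, hx, hx'⟩ := hθ1
        exact ⟨x * θ ^ n, mul_mem hx (pow_mem hθA _), by
          nth_rewrite 1 [hx']
          ring⟩
      · obtain ⟨x, hx, hx'⟩ := hθ2
        refine ⟨x * (θ ^ n) ^ (p - 1), mul_mem hx (pow_mem (pow_mem hθA _) _), ?_⟩
        rw [mul_pow, hx', mul_assoc, mul_assoc]
  intro c' hc' hc'A
  obtain ⟨n, hn⟩ := hArch θ hθA hθres c' hc'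
  obtain ⟨h', hh', w', hw', hf'⟩ := key n
  refine ⟨h', hh', ((p : K) * (a * (c'⁻¹ * θ ^ n))) • (h' ^ p * w'),
    R.smul_mem (mul_mem (natCast_mem _ _) (mul_mem hc1 hn)) (mul_mem (pow_mem hh' _) hw'), ?_⟩
  rw [hf', smul_smul, mul_add, mul_one, mul_smul_comm]
  congr 2
  have : c' * ((p : K) * (a * (c'⁻¹ * θ ^ n))) = (c' * c'⁻¹) * ((p : K) * (a * θ ^ n)) := by ring
  rw [this, mul_inv_cancel₀ hc', one_mul]

variable [IsFF K F] [IsFF k F'] [IsAlgClosed K] [IsAlgClosed k]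

/-- **Injectivity at the residue characteristic**: if `p • D = div f` and
`f = h ^ p (1 + c w)` with `|c| < |p| ^ (p / (p - 1))` then `D` is principal. -/
theorem isPrincipal_of_close (hg : genusFF K F ≤ genusFF k F') (hArch : R.Arch) {p : ℕ}
    (hp : p.Prime) (hp0 : (p : K) ≠ 0) (hpk : (p : k) = 0)
    {D : Divisor K F} (hD : Divisor.degree D = 0) {f h w : F} {c : K} (hh : h ∈ R.O)
    (hh' : R.red h ≠ 0) (hw : w ∈ R.O) (hf : f = h ^ p * (1 + c • w))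
    (hc1 : ((p : K))⁻¹ * c ∈ R.A) (hc1' : R.res ((p : K)⁻¹ * c) = 0)
    (hc2 : (p : K)⁻¹ * ((p : K)⁻¹ * c) ^ (p - 1) ∈ R.A)
    (hc2' : R.res ((p : K)⁻¹ * ((p : K)⁻¹ * c) ^ (p - 1)) = 0)
    (hdiv : ∀ v : Place K F, v.ord f = p * D v) : Divisor.IsPrincipal D := by
  have hpA : (p : K) ∈ R.A := natCast_mem _ _
  have hpres : R.res (p : K) = 0 := by
    rw [R.res_of_mem hpA]
    have : (⟨(p : K), hpA⟩ : R.A) = (p : R.A) := by ext; simp
    rw [this, map_natCast, hpk]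
  have hcA : c ∈ R.A := by
    have : c = (p : K) * ((p : K)⁻¹ * c) := by rw [mul_inv_cancel_left₀ hp0]
    rw [this]; exact mul_mem hpA hc1
  have hcres : R.res c = 0 := by
    have : c = (p : K) * ((p : K)⁻¹ * c) := by rw [mul_inv_cancel_left₀ hp0]
    rw [this, R.res_mul hpA hc1, hpres, zero_mul]
  have h1O : 1 + c • w ∈ R.O := add_mem (one_mem _) (R.smul_mem hcA hw)
  have hfO : f ∈ R.O := by rw [hf]; exact mul_mem (pow_mem hh _) h1O
  have hfred : R.red f ≠ 0 := by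
    rw [hf, R.red_mul (pow_mem hh _) h1O, R.red_pow hh,
      R.red_add (one_mem _) (R.smul_mem hcA hw), R.red_smul hcA hw, hcres, zero_smul, add_zero,
      R.red_one, mul_one]
    exact pow_ne_zero _ hh'
  exact R.isPrincipal_of_powerApprox hg ⟨p, hp0, hpA, hpres⟩ hp.ne_zero hD hfO hfred hdiv
    (powerApprox_of_close hArch hp hp0 hh hw hf hc1 hc1' hc2 hc2')

end RedData

end Fermat.Agent.RedInj
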